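import Fermat.Agent.ZCm.Quad
import Mathlib.NumberTheory.NumberField.Basic
import Mathlib.RingTheory.Trace.Basic
import Mathlib.RingTheory.Norm.Transitivity
import Mathlib.RingTheory.IntegralClosure.IntegrallyClosed
import Mathlib.FieldTheory.IntermediateField.Basic
import Mathlib.RingTheory.Polynomial.RationalRoot
import Mathlib.Data.Nat.Squarefree

/-!
# The ring of integers of `ℚ(√-N)` for `N ≡ 2 mod 4`
-/

set_option autoImplicit false

noncomputable section

open Module NumberField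

namespace Fermat.Agent.ZCm

theorem int_of_sq_int (t : ℚ) (h : ∃ m : ℤ, t ^ 2 = m) : ∃ w : ℤ, t = w := by
  obtain ⟨m, hm⟩ := h
  have h1 : IsIntegral ℤ t := by
    refine ⟨Polynomial.X ^ 2 - Polynomial.C m, Polynomial.monic_X_pow_sub_C _ two_ne_zero, ?_⟩
    rw [Polynomial.eval₂_sub, Polynomial.eval₂_pow, Polynomial.eval₂_X, Polynomial.eval₂_C, hm]
    simp
  obtain ⟨w, hw⟩ := IsIntegrallyClosed.isIntegral_iff.1 h1
  exact ⟨w, by rw [← hw]; rfl⟩

theorem int_of_squarefree {N : ℕ} (hN : 0 < N) (hsq : Squarefree N) (t : ℚ)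
    (h : ∃ m : ℤ, N * t ^ 2 = m) : ∃ w : ℤ, t = w := by
  obtain ⟨m, hm⟩ := h
  obtain ⟨w, hw⟩ := int_of_sq_int (N * t) ⟨N * m, by rw [mul_pow]; push_cast; rw [← hm]; ring⟩
  have h1 : w ^ 2 = N * m := by
    have : (w : ℚ) ^ 2 = N * m := by rw [← hw, ← hm]; ring
    exact_mod_cast this
  have h2 : (N : ℤ) ∣ w :=
    ((Int.squarefree_natCast.2 hsq).dvd_pow_iff_dvd (n := 2) two_ne_zero).1 ⟨m, h1⟩
  obtain ⟨v, hv⟩ := h2
  refine ⟨v, ?_⟩
  have hN' : (N : ℚ) ≠ 0 := by exact_mod_cast hN.ne'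
  apply mul_left_cancel₀ hN'
  rw [hw, hv]
  push_cast
  ring

theorem even_of_sq {N : ℕ} (hN : N % 4 = 2) {s t n : ℤ} (h : s ^ 2 + N * t ^ 2 = 4 * n) :
    2 ∣ s ∧ 2 ∣ t := by
  obtain ⟨k, hk⟩ : ∃ k : ℤ, (N : ℤ) = 4 * k + 2 := ⟨(N : ℤ) / 4, by omega⟩
  rw [hk] at h
  rcases Int.even_or_odd' s with ⟨s', rfl | rfl⟩ <;> rcases Int.even_or_odd' t with ⟨t', rfl | rfl⟩
  · exact ⟨dvd_mul_right _ _, dvd_mul_right _ _⟩
  · exfalso
    have : 4 * (s' ^ 2 + k * (2 * t' + 1) ^ 2 + 2 * (t' ^ 2 + t') - n) + 2 = 0 := by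
      linear_combination h
    omega
  · exfalso
    have : 4 * (s' ^ 2 + s' + (4 * k + 2) * t' ^ 2 - n) + 1 = 0 := by
      linear_combination h
    omega
  · exfalso
    have : 4 * (s' ^ 2 + s' + k * (2 * t' + 1) ^ 2 + 2 * (t' ^ 2 + t') - n) + 3 = 0 := by
      linear_combination h
    omega

variable {K : Type*} [Field K] [NumberField K] {N : ℕ}

theorem exists_coords (hK : finrank ℚ K = 2) (hN : 0 < N) (lam : K) (hlam : lam ^ 2 = -(N : K)) :
    ∃ b : Basis (Fin 2) ℚ K, b 0 = 1 ∧ b 1 = lam := by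
  have hli : LinearIndependent ℚ ![(1 : K), lam] := by
    rw [LinearIndependent.pair_iff]
    intro u v h
    have h0 : (u : K) + v * lam = 0 := by
      simpa [Algebra.smul_def] using h
    have h1 : (u : K) = -(v * lam) := by linear_combination h0
    have h2 : ((u ^ 2 + N * v ^ 2 : ℚ) : K) = 0 := by
      push_cast
      rw [h1]; linear_combination (v : K) ^ 2 * hlam
    have h3 : u ^ 2 + N * v ^ 2 = 0 := by exact_mod_cast h2
    have hN' : (0 : ℚ) < N := by exact_mod_cast hN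
    have h4 : v ^ 2 = 0 := by nlinarith [sq_nonneg u, sq_nonneg v]
    have h5 : v = 0 := by simpa using h4
    subst h5
    refine ⟨?_, rfl⟩
    simpa using h3
  refine ⟨basisOfLinearIndependentOfCardEqFinrank hli (by rw [hK]; rfl), ?_, ?_⟩
  · rw [coe_basisOfLinearIndependentOfCardEqFinrank]; rfl
  · rw [coe_basisOfLinearIndependentOfCardEqFinrank]; rfl

theorem hgen_of_finrank (hK : finrank ℚ K = 2) (hN4 : N % 4 = 2) (hsq : Squarefree N)
    (lam : 𝓞 K) (hlam : lam ^ 2 = -(N : 𝓞 K)) (x : 𝓞 K) : ∃ a b : ℤ, x = a + b * lam := by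
  have hN : 0 < N := by omega
  have hlam' : (lam : K) ^ 2 = -(N : K) := by
    have := congrArg (algebraMap (𝓞 K) K) hlam
    simpa using this
  obtain ⟨b, hb0, hb1⟩ := exists_coords hK hN (lam : K) hlam'
  have hx : (x : K) = b.repr x 0 • (1 : K) + b.repr x 1 • (lam : K) := by
    have := b.sum_repr (x : K)
    rw [Fin.sum_univ_two, hb0, hb1] at this
    exact this.symm
  set u : ℚ := b.repr x 0
  set v : ℚ := b.repr x 1
  have hrepr : ∀ u v : ℚ, b.repr (u • (1 : K) + v • (lam : K)) 0 = u ∧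
      b.repr (u • (1 : K) + v • (lam : K)) 1 = v := by
    intro u v
    have h0 := b.repr_self 0
    have h1 := b.repr_self 1
    rw [hb0] at h0
    rw [hb1] at h1
    rw [map_add, map_smul, map_smul, h0, h1]
    constructor <;> simp
  have m0 : (x : K) * b 0 = u • (1 : K) + v • (lam : K) := by rw [hb0, mul_one, ← hx]
  have m1 : (x : K) * b 1 = (-(N * v)) • (1 : K) + u • (lam : K) := by
    rw [hb1, hx]
    simp only [Algebra.smul_def, map_neg, map_mul, map_natCast]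
    linear_combination (algebraMap ℚ K v) * hlam'
  have hM : ∀ i j, Algebra.leftMulMatrix b (x : K) i j = (!![u, -(N * v); v, u] :
      Matrix (Fin 2) (Fin 2) ℚ) i j := by
    intro i j
    rw [Algebra.leftMulMatrix_eq_repr_mul]
    fin_cases i <;> fin_cases j
    · show b.repr ((x : K) * b 0) 0 = u
      rw [m0, (hrepr _ _).1]
    · show b.repr ((x : K) * b 1) 0 = -(N * v)
      rw [m1, (hrepr _ _).1]
    · show b.repr ((x : K) * b 0) 1 = v
      rw [m0, (hrepr _ _).2]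
    · show b.repr ((x : K) * b 1) 1 = u
      rw [m1, (hrepr _ _).2]
  have hM' : Algebra.leftMulMatrix b (x : K) = !![u, -(N * v); v, u] := by
    ext i j; exact hM i j
  have htr : Algebra.trace ℚ K (x : K) = 2 * u := by
    rw [Algebra.trace_eq_matrix_trace b, hM', Matrix.trace_fin_two]
    simp; ring
  have hnm : Algebra.norm ℚ (x : K) = u ^ 2 + N * v ^ 2 := by
    rw [Algebra.norm_eq_matrix_det b, hM', Matrix.det_fin_two_of]
    ring
  have hint : IsIntegral ℤ (x : K) := x.2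
  obtain ⟨s, hs⟩ := IsIntegrallyClosed.isIntegral_iff.1 (Algebra.isIntegral_trace (L := ℚ) hint)
  obtain ⟨n, hn⟩ := IsIntegrallyClosed.isIntegral_iff.1 (Algebra.isIntegral_norm ℚ hint)
  rw [htr] at hs
  rw [hnm] at hn
  have hs' : (s : ℚ) = 2 * u := hs
  have hn' : (n : ℚ) = u ^ 2 + N * v ^ 2 := hn
  obtain ⟨t, ht⟩ := int_of_squarefree hN hsq (2 * v) ⟨4 * n - s ^ 2, by
    push_cast; rw [hs', hn']; ring⟩
  have hst : s ^ 2 + N * t ^ 2 = 4 * n := by
    have : (s : ℚ) ^ 2 + N * t ^ 2 = 4 * n := by rw [← ht, hs', hn']; ring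
    exact_mod_cast this
  obtain ⟨⟨s', rfl⟩, ⟨t', rfl⟩⟩ := even_of_sq hN4 hst
  have hu : u = s' := by push_cast at hs'; linarith
  have hv : v = t' := by push_cast at ht; linarith
  refine ⟨s', t', RingOfIntegers.ext ?_⟩
  rw [hx, hu, hv]
  simp [Algebra.smul_def]

end Fermat.Agent.ZCm
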