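import Fermat.Agent.ZCm.Final
import Fermat.Agent.ZCm.Gen

/-!
# Block CMCL: matrices of complex multiplication and the class group of `𝓞 K`
-/

set_option autoImplicit false
set_option linter.unusedSectionVars false

noncomputable section

open Module nonZeroDivisors MatrixGroups CongruenceSubgroup NumberField

namespace Fermat.Agent.ZCm

open Fermat.Agent.TorsCmp (Cos rep)

variable {K : Type*} [Field K] [NumberField K] {N : ℕ}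

theorem isQuad_of_gen (hN : 0 < N) (lam : 𝓞 K) (hlam : lam ^ 2 = -(N : 𝓞 K))
    (hgen : ∀ x : 𝓞 K, ∃ a b : ℤ, x = a + b * lam) : IsQuad (𝓞 K) N lam :=
  ⟨hN, hlam, hgen⟩

theorem isQuad_of_finrank (hK : finrank ℚ K = 2) (hN4 : N % 4 = 2) (hsq : Squarefree N)
    (lam : 𝓞 K) (hlam : lam ^ 2 = -(N : 𝓞 K)) : IsQuad (𝓞 K) N lam :=
  ⟨by omega, hlam, hgen_of_finrank hK hN4 hsq lam hlam⟩

/-- **CMCL** -/
theorem exists_cls [NeZero N] (hsq : Squarefree N) (lam : 𝓞 K) (hlam : lam ^ 2 = -(N : 𝓞 K))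
    (hgen : ∀ x : 𝓞 K, ∃ a b : ℤ, x = a + b * lam) :
    ∃ cls : Matrix (Fin 2) (Fin 2) ℤ → ClassGroup (𝓞 K),
      (∀ A B, Fx N A → Fx N B → (cls A = cls B ↔ ∃ γ ∈ Gamma0 N,
        (γ : Matrix (Fin 2) (Fin 2) ℤ) * A = B * (γ : Matrix (Fin 2) (Fin 2) ℤ))) ∧
      (∀ c, ∃ A, Fx N A ∧ cls A = c) ∧
      (∀ (l : ℕ) [NeZero l], l.Prime → l ≠ 2 → ¬ l ∣ N → ∀ I : (Ideal (𝓞 K))⁰,
        Ideal.absNorm (I : Ideal (𝓞 K)) = l → ∀ A, Fx N A →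
        ∃ c₁ c₂ : Cos N l, c₁ ≠ c₂ ∧ ∃ A₁ A₂, Fx N A₁ ∧ Fx N A₂ ∧
          dl N l c₁ * A = A₁ * dl N l c₁ ∧ dl N l c₂ * A = A₂ * dl N l c₂ ∧
          cls A₁ = cls A * ClassGroup.mk0 I ∧ cls A₂ = cls A * (ClassGroup.mk0 I)⁻¹ ∧
          ∀ c A', dl N l c * A = A' * dl N l c → c = c₁ ∨ c = c₂) :=
  exists_cls_aux (isQuad_of_gen (NeZero.pos N) lam hlam hgen) hsq

/-- ideals of norm `l`, when `-N` is a square modulo `l` -/
theorem exists_absNorm_eq (hN : 0 < N) (lam : 𝓞 K) (hlam : lam ^ 2 = -(N : 𝓞 K))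
    (hgen : ∀ x : 𝓞 K, ∃ a b : ℤ, x = a + b * lam) (l : ℕ) (hl : l.Prime)
    (h : IsSquare ((-(N : ℤ) : ℤ) : ZMod l)) : ∃ I : Ideal (𝓞 K), Ideal.absNorm I = l := by
  obtain ⟨r, hr⟩ := h
  have : Fact l.Prime := ⟨hl⟩
  refine exists_ideal (isQuad_of_gen hN lam hlam hgen) l hl (r.val : ℤ) ?_
  rw [← ZMod.intCast_zmod_eq_zero_iff_dvd]
  push_cast
  rw [ZMod.natCast_val, ZMod.cast_id', id]
  push_cast at hr
  rw [pow_two, ← hr]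
  ring

end Fermat.Agent.ZCm
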