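import Mathlib

/-!
Block ZB5 CLALG (Theorem Z): the part of the function space `G → 𝔽₂` of a finite abelian group
attached to a surjection `ψ : G → ℤ/3`.
-/

set_option autoImplicit false

namespace Fermat.Agent.ZCm

variable {G : Type} [CommGroup G]

/-- Translation operator. -/
def L (g : G) : Module.End (ZMod 2) (G → ZMod 2) :=
  LinearMap.funLeft (ZMod 2) (ZMod 2) (fun c => g * c)

@[simp] lemma L_apply (g : G) (F : G → ZMod 2) (c : G) : L g F c = F (g * c) := rfl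

lemma L_mul (g h : G) : L (g * h) = L g * L h := by
  ext F c
  simp only [L_apply, Module.End.mul_apply]
  rw [← mul_assoc, mul_comm h g]

lemma L_one : L (1 : G) = 1 := by
  ext F c
  simp

lemma L_comm (g h : G) : Commute (L g) (L h) := by
  unfold Commute SemiconjBy
  rw [← L_mul, ← L_mul, mul_comm]

lemma L_pow (g : G) (n : ℕ) : L g ^ n = L (g ^ n) := by
  induction n with
  | zero => rw [pow_zero, pow_zero, L_one]
  | succ n ih => rw [pow_succ, pow_succ, ih, L_mul]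

/-- The operator `F ↦ (c ↦ F (g c) + F (g⁻¹ c))`. -/
def E (g : G) : Module.End (ZMod 2) (G → ZMod 2) := L g + L g⁻¹

@[simp] lemma E_apply (g : G) (F : G → ZMod 2) (c : G) : E g F c = F (g * c) + F (g⁻¹ * c) := rfl

/-- The residual trace. -/
noncomputable def t (ψ : G →* Multiplicative (ZMod 3)) (g : G) : ZMod 2 :=
  open scoped Classical in if ψ g = 1 then 0 else 1

/-- The function space. -/
def V (π : G →* G) (ψ : G →* Multiplicative (ZMod 3)) : Submodule (ZMod 2) (G → ZMod 2) where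
  carrier := {F | (∀ c d, π c = π d → ψ c = ψ d → F c = F d) ∧
    ∀ c d e, π c = π d → π c = π e → ψ c ≠ ψ d → ψ c ≠ ψ e → ψ d ≠ ψ e → F c + F d + F e = 0}
  zero_mem' := ⟨fun _ _ _ _ => rfl, fun _ _ _ _ _ _ _ _ => by simp⟩
  add_mem' := by
    rintro F F' ⟨h1, h2⟩ ⟨h1', h2'⟩
    refine ⟨fun c d h h' => ?_, fun c d e a1 a2 a3 a4 a5 => ?_⟩
    · simp only [Pi.add_apply, h1 c d h h', h1' c d h h']
    · have e1 := h2 c d e a1 a2 a3 a4 a5
      have e2 := h2' c d e a1 a2 a3 a4 a5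
      simp only [Pi.add_apply]
      linear_combination e1 + e2
  smul_mem' := by
    rintro r F ⟨h1, h2⟩
    refine ⟨fun c d h h' => ?_, fun c d e a1 a2 a3 a4 a5 => ?_⟩
    · simp only [Pi.smul_apply, h1 c d h h']
    · have e1 := h2 c d e a1 a2 a3 a4 a5
      simp only [Pi.smul_apply, smul_eq_mul]
      linear_combination r * e1

variable {π : G →* G} {ψ : G →* Multiplicative (ZMod 3)}

lemma L_mem (g : G) {F : G → ZMod 2} (hF : F ∈ V π ψ) : L g F ∈ V π ψ := by
  obtain ⟨h1, h2⟩ := hF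
  refine ⟨fun c d h h' => ?_, fun c d e a1 a2 a3 a4 a5 => ?_⟩
  · exact h1 _ _ (by rw [map_mul, map_mul, h]) (by rw [map_mul, map_mul, h'])
  · refine h2 _ _ _ (by rw [map_mul, map_mul, a1]) (by rw [map_mul, map_mul, a2]) ?_ ?_ ?_
    · rw [map_mul, map_mul]; exact fun h => a3 (mul_left_cancel h)
    · rw [map_mul, map_mul]; exact fun h => a4 (mul_left_cancel h)
    · rw [map_mul, map_mul]; exact fun h => a5 (mul_left_cancel h)

lemma E_mem (g : G) {F : G → ZMod 2} (hF : F ∈ V π ψ) : E g F ∈ V π ψ :=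
  (V π ψ).add_mem (L_mem g hF) (L_mem g⁻¹ hF)

lemma z3_inv_ne {z : Multiplicative (ZMod 3)} (hz : z ≠ 1) : z⁻¹ ≠ z := by
  revert z; decide

lemma z3_cube (z : Multiplicative (ZMod 3)) : z ^ 3 = 1 := by
  revert z; decide

lemma z3_pow_ne {z : Multiplicative (ZMod 3)} (hz : z ≠ 1) (k : ℕ) : z ^ (2 ^ k) ≠ 1 := by
  induction k with
  | zero => simpa using hz
  | succ k ih =>
    rw [pow_succ, pow_mul]
    generalize z ^ (2 ^ k) = w at ih
    revert w; decide

lemma two_eq_zero : (2 : ZMod 2) = 0 := by decide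

omit [CommGroup G] in
lemma end_add_self (x : Module.End (ZMod 2) (G → ZMod 2)) : x + x = 0 := by
  ext F c
  have : (x F c) + (x F c) = 2 * x F c := by ring
  simp only [LinearMap.add_apply, Pi.add_apply, this, two_eq_zero, zero_mul]
  rfl

omit [CommGroup G] in
lemma pow_two_pow_add {x y : Module.End (ZMod 2) (G → ZMod 2)} (h : Commute x y) (k : ℕ) :
    (x + y) ^ (2 ^ k) = x ^ (2 ^ k) + y ^ (2 ^ k) := by
  induction k with
  | zero => simp
  | succ k ih =>
    rw [pow_succ, pow_mul, ih, pow_mul, pow_mul, sq]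
    have hc : Commute (x ^ 2 ^ k) (y ^ 2 ^ k) := h.pow_pow _ _
    rw [mul_add, add_mul, add_mul, hc.eq, sq, sq]
    have := end_add_self (G := G) (y ^ 2 ^ k * x ^ 2 ^ k)
    calc _ = x ^ 2 ^ k * x ^ 2 ^ k + y ^ 2 ^ k * y ^ 2 ^ k +
        (y ^ 2 ^ k * x ^ 2 ^ k + y ^ 2 ^ k * x ^ 2 ^ k) := by abel
      _ = _ := by rw [this, add_zero]

lemma t_pow (g : G) (k : ℕ) : (t ψ g) ^ (2 ^ k) = t ψ g := by
  have h2 : 2 ^ k ≠ 0 := by positivity
  unfold t
  split_ifs
  · rw [zero_pow h2]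
  · rw [one_pow]

lemma E_sub_pow (g : G) (k : ℕ) :
    (E g - t ψ g • (1 : Module.End (ZMod 2) (G → ZMod 2))) ^ (2 ^ k) =
      E (g ^ (2 ^ k)) + t ψ g • (1 : Module.End (ZMod 2) (G → ZMod 2)) := by
  have hneg : E g - t ψ g • (1 : Module.End (ZMod 2) (G → ZMod 2)) =
      (L g + L g⁻¹) + t ψ g • (1 : Module.End (ZMod 2) (G → ZMod 2)) := by
    rw [sub_eq_add_neg, neg_eq_of_add_eq_zero_left (end_add_self _)]; rfl
  have hc : Commute (L g + L g⁻¹) (t ψ g • (1 : Module.End (ZMod 2) (G → ZMod 2))) :=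
    (Commute.one_right _).smul_right _
  rw [hneg, pow_two_pow_add hc, pow_two_pow_add (L_comm g g⁻¹), L_pow, L_pow, smul_pow, one_pow,
    t_pow, inv_pow]
  rfl

lemma nilp (g : G) (k : ℕ) (hk : π (g ^ (2 ^ k)) = 1) {F : G → ZMod 2} (hF : F ∈ V π ψ) :
    ((E g - t ψ g • (1 : Module.End (ZMod 2) (G → ZMod 2))) ^ (2 ^ k)) F = 0 := by
  rw [E_sub_pow]
  obtain ⟨h1, h2⟩ := hF
  funext c
  simp only [LinearMap.add_apply, LinearMap.smul_apply, Module.End.one_apply, Pi.add_apply,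
    Pi.smul_apply, smul_eq_mul, E_apply, Pi.zero_apply]
  set h := g ^ (2 ^ k) with hh
  have hψ : ψ h = ψ g ^ (2 ^ k) := by rw [hh, map_pow]
  have e1 : π (h * c) = π c := by rw [map_mul, hk, one_mul]
  have e2 : π (h⁻¹ * c) = π c := by rw [map_mul, map_inv, hk, inv_one, one_mul]
  by_cases hg : ψ g = 1
  · have hψh : ψ h = 1 := by rw [hψ, hg, one_pow]
    have e3 : F (h * c) = F c := h1 _ _ e1 (by rw [map_mul, hψh, one_mul])
    have e4 : F (h⁻¹ * c) = F c := h1 _ _ e2 (by rw [map_mul, map_inv, hψh, inv_one, one_mul])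
    rw [e3, e4]
    simp only [t, hg, if_true]
    have : F c + F c = 2 * F c := by ring
    rw [this, two_eq_zero]; simp
  · have hψh : ψ h ≠ 1 := by rw [hψ]; exact z3_pow_ne hg k
    simp only [t, hg, if_false, one_mul]
    refine h2 (h * c) (h⁻¹ * c) c (e1.trans e2.symm) e1 ?_ ?_ ?_
    · rw [map_mul, map_mul, map_inv]
      exact fun e => z3_inv_ne hψh (mul_right_cancel e).symm
    · rw [map_mul]
      exact fun e => hψh (mul_eq_right.mp e)
    · rw [map_mul, map_inv]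
      exact fun e => hψh (inv_eq_one.mp (mul_eq_right.mp e))

lemma sum_eq_zero [Fintype G] (h : G) (hπ : π h = 1) (hψ : ψ h ≠ 1) {F : G → ZMod 2}
    (hF : F ∈ V π ψ) : ∑ c, F c = 0 := by
  obtain ⟨-, h2⟩ := hF
  have e1 : ∑ c, F (h * c) = ∑ c, F c := Fintype.sum_equiv (Equiv.mulLeft h) _ _ (fun _ => rfl)
  have e2 : ∑ c, F (h⁻¹ * c) = ∑ c, F c :=
    Fintype.sum_equiv (Equiv.mulLeft h⁻¹) _ _ (fun _ => rfl)
  have e3 : ∑ c, (F (h * c) + F (h⁻¹ * c) + F c) = 0 := by
    refine Finset.sum_eq_zero fun c _ => ?_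
    have a1 : π (h * c) = π c := by rw [map_mul, hπ, one_mul]
    have a2 : π (h⁻¹ * c) = π c := by rw [map_mul, map_inv, hπ, inv_one, one_mul]
    refine h2 (h * c) (h⁻¹ * c) c (a1.trans a2.symm) a1 ?_ ?_ ?_
    · rw [map_mul, map_mul, map_inv]
      exact fun e => z3_inv_ne hψ (mul_right_cancel e).symm
    · rw [map_mul]
      exact fun e => hψ (mul_eq_right.mp e)
    · rw [map_mul, map_inv]
      exact fun e => hψ (inv_eq_one.mp (mul_eq_right.mp e))
  rw [Finset.sum_add_distrib, Finset.sum_add_distrib, e1, e2] at e3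
  have : (3 : ZMod 2) * ∑ c, F c = 0 := by linear_combination e3
  have h3 : (3 : ZMod 2) = 1 := by decide
  rwa [h3, one_mul] at this

/-- The parametrisation of `V`. -/
noncomputable def par (π : G →* G) (ψ : G →* Multiplicative (ZMod 3)) :
    ((π.range → ZMod 2) × (π.range → ZMod 2)) →ₗ[ZMod 2] (G → ZMod 2) where
  toFun ab := fun c => open scoped Classical in
    if ψ c = 1 then ab.1 ⟨π c, c, rfl⟩ + ab.2 ⟨π c, c, rfl⟩
    else if ψ c = Multiplicative.ofAdd 1 then ab.1 ⟨π c, c, rfl⟩ else ab.2 ⟨π c, c, rfl⟩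
  map_add' := by
    intro x y
    funext c
    simp only [Prod.fst_add, Prod.snd_add, Pi.add_apply]
    split_ifs
    · ring
    · rfl
    · rfl
  map_smul' := by
    intro r x
    funext c
    simp only [Prod.smul_fst, Prod.smul_snd, Pi.smul_apply, smul_eq_mul, RingHom.id_apply]
    split_ifs
    · ring
    · rfl
    · rfl

lemma z3_cases (z : Multiplicative (ZMod 3)) : z = 1 ∨ z = Multiplicative.ofAdd 1 ∨
    z = Multiplicative.ofAdd 2 := by
  revert z; decide

lemma par_mem (ab : (π.range → ZMod 2) × (π.range → ZMod 2)) : par π ψ ab ∈ V π ψ := by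
  have n1 : (Multiplicative.ofAdd (1 : ZMod 3)) ≠ 1 := by decide
  have n2 : (Multiplicative.ofAdd (2 : ZMod 3)) ≠ 1 := by decide
  have n3 : (Multiplicative.ofAdd (2 : ZMod 3)) ≠ Multiplicative.ofAdd (1 : ZMod 3) := by decide
  refine ⟨fun c d h h' => ?_, fun c d e a1 a2 a3 a4 a5 => ?_⟩
  · have : (⟨π c, c, rfl⟩ : π.range) = ⟨π d, d, rfl⟩ := Subtype.ext h
    simp only [par, LinearMap.coe_mk, AddHom.coe_mk, this, h']
  · have e1 : (⟨π d, d, rfl⟩ : π.range) = ⟨π c, c, rfl⟩ := Subtype.ext a1.symm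
    have e2 : (⟨π e, e, rfl⟩ : π.range) = ⟨π c, c, rfl⟩ := Subtype.ext a2.symm
    have key : ∀ u w : ZMod 2, u + w + (u + w) = 0 := by decide
    simp only [par, LinearMap.coe_mk, AddHom.coe_mk, e1, e2]
    generalize ab.1 ⟨π c, c, rfl⟩ = u
    generalize ab.2 ⟨π c, c, rfl⟩ = w
    have hk := key u w
    rcases z3_cases (ψ c) with hc | hc | hc <;> rcases z3_cases (ψ d) with hd | hd | hd <;>
      rcases z3_cases (ψ e) with he | he | he <;>
      simp only [hc, hd, he, ne_eq, not_true_eq_false] at a3 a4 a5 ⊢ <;>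
      simp only [n1, n2, n3, if_true, if_false] <;> linear_combination hk

lemma par_injective (hsurj : ∀ (x : G) (z : Multiplicative (ZMod 3)),
    ∃ c : G, π c = π x ∧ ψ c = z) : Function.Injective (par π ψ) := by
  have n1 : (Multiplicative.ofAdd (1 : ZMod 3)) ≠ 1 := by decide
  have n2 : (Multiplicative.ofAdd (2 : ZMod 3)) ≠ 1 := by decide
  have n3 : (Multiplicative.ofAdd (2 : ZMod 3)) ≠ Multiplicative.ofAdd (1 : ZMod 3) := by decide
  intro ab ab' h
  refine Prod.ext (funext ?_) (funext ?_)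
  · rintro ⟨_, x, rfl⟩
    obtain ⟨c, hc1, hc2⟩ := hsurj x (Multiplicative.ofAdd 1)
    have := congrFun h c
    have e : (⟨π c, c, rfl⟩ : π.range) = ⟨π x, x, rfl⟩ := Subtype.ext hc1
    simpa only [par, LinearMap.coe_mk, AddHom.coe_mk, hc2, n1, if_true, if_false, e] using this
  · rintro ⟨_, x, rfl⟩
    obtain ⟨c, hc1, hc2⟩ := hsurj x (Multiplicative.ofAdd 2)
    have := congrFun h c
    have e : (⟨π c, c, rfl⟩ : π.range) = ⟨π x, x, rfl⟩ := Subtype.ext hc1
    simpa only [par, LinearMap.coe_mk, AddHom.coe_mk, hc2, n2, n3, if_false, e] using this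

/-- Block ZB5. -/
theorem clalg (G : Type) [CommGroup G] [Finite G] [Fintype G]
    (ψ : G →* Multiplicative (ZMod 3)) (hψ : Function.Surjective ψ) :
    ∃ V : Submodule (ZMod 2) (G → ZMod 2),
      2 * Nat.card {g : G // ∃ k : ℕ, g ^ (2 ^ k) = 1} ≤ Module.finrank (ZMod 2) V ∧
      (∀ g, ∀ F ∈ V, E g F ∈ V) ∧ (∀ F ∈ V, ∑ c, F c = 0) ∧
      ∃ n : ℕ, ∀ g, ∀ F ∈ V,
        ((E g - t ψ g • (1 : Module.End (ZMod 2) (G → ZMod 2))) ^ n) F = 0 := by
  classical
  obtain ⟨k, m, hm, hcard⟩ := Nat.exists_eq_two_pow_mul_odd (n := Nat.card G) Nat.card_pos.ne'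
  have hcop : Nat.Coprime (2 ^ k) m := (Nat.coprime_two_left.mpr hm).pow_left k
  obtain ⟨e, he1, he2⟩ := Nat.chineseRemainder hcop 1 0
  have hm1 : m ∣ e := (Nat.modEq_zero_iff_dvd).mp he2
  let π : G →* G := powMonoidHom e
  have hπ : ∀ g, π g = g ^ e := fun _ => rfl
  have hpow : ∀ g : G, g ^ (2 ^ k * m) = 1 := fun g => by rw [← hcard]; exact pow_card_eq_one'
  -- elements of 2-power order are fixed by `π`
  have hfix : ∀ g : G, g ^ (2 ^ k) = 1 → π g = g := by
    intro g hg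
    rw [hπ]
    conv_rhs => rw [← pow_one g]
    exact (pow_eq_pow_iff_modEq.mpr (he1.of_dvd (orderOf_dvd_of_pow_eq_one hg)))
  have himg : ∀ g : G, (π g) ^ (2 ^ k) = 1 := by
    intro g
    obtain ⟨j, hj⟩ := hm1
    rw [hπ, ← pow_mul, hj]
    have : m * j * 2 ^ k = 2 ^ k * m * j := by ring
    rw [this, pow_mul, hpow, one_pow]
  have htwo : ∀ g : G, (∃ k' : ℕ, g ^ (2 ^ k') = 1) → g ^ (2 ^ k) = 1 := by
    rintro g ⟨k', hk'⟩
    have h1 : orderOf g ∣ 2 ^ k' := orderOf_dvd_of_pow_eq_one hk'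
    have h2 : orderOf g ∣ 2 ^ k * m := orderOf_dvd_of_pow_eq_one (hpow g)
    have h3 : Nat.Coprime (orderOf g) m :=
      Nat.Coprime.coprime_dvd_left h1 ((Nat.coprime_two_left.mpr hm).pow_left k')
    exact orderOf_dvd_iff_pow_eq_one.mp (h3.dvd_of_dvd_mul_right h2)
  -- an element with `π h = 1` and prescribed `ψ`
  have hex : ∀ z : Multiplicative (ZMod 3), ∃ h : G, π h = 1 ∧ ψ h = z := by
    intro z
    obtain ⟨g, hg⟩ := hψ z
    obtain ⟨a, ha⟩ : ∃ a : ℕ, (z ^ (2 ^ k)) ^ a = z := by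
      have : ∀ w : Multiplicative (ZMod 3), ∃ a : ℕ, (w ^ (2 ^ k)) ^ a = w := by
        intro w
        refine ⟨2 ^ k, ?_⟩
        rw [← pow_mul, ← mul_pow]
        conv_rhs => rw [← pow_one w]
        refine pow_eq_pow_iff_modEq.mpr (Nat.ModEq.of_dvd (orderOf_dvd_of_pow_eq_one (z3_cube w)) ?_)
        have h4 : 2 * 2 ≡ 1 [MOD 3] := by decide
        simpa using h4.pow k
      exact this z
    refine ⟨(g ^ (2 ^ k)) ^ a, ?_, ?_⟩
    · rw [map_pow, map_pow, himg, one_pow]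
    · rw [map_pow, map_pow, hg, ha]
  have hsurj : ∀ (x : G) (z : Multiplicative (ZMod 3)), ∃ c : G, π c = π x ∧ ψ c = z := by
    intro x z
    obtain ⟨h, h1, h2⟩ := hex ((ψ x)⁻¹ * z)
    refine ⟨x * h, by rw [map_mul, h1, mul_one], by rw [map_mul, h2, mul_inv_cancel_left]⟩
  refine ⟨V π ψ, ?_, fun g F hF => E_mem g hF, ?_, 2 ^ k, fun g F hF => nilp g k ?_ hF⟩
  · -- dimension
    have hrange : Nat.card {g : G // ∃ k : ℕ, g ^ (2 ^ k) = 1} = Nat.card π.range := by
      refine Nat.card_congr (Equiv.subtypeEquivRight fun g => ?_)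
      constructor
      · intro h
        exact ⟨g, hfix g (htwo g h)⟩
      · rintro ⟨g', rfl⟩
        exact ⟨k, himg g'⟩
    let par' : ((π.range → ZMod 2) × (π.range → ZMod 2)) →ₗ[ZMod 2] V π ψ :=
      (par π ψ).codRestrict (V π ψ) par_mem
    have hinj : Function.Injective par' := by
      intro a b hab
      exact par_injective hsurj (congrArg Subtype.val hab)
    have h := LinearMap.finrank_le_finrank_of_injective hinj
    rw [Module.finrank_prod, Module.finrank_pi, ← Nat.card_eq_fintype_card] at h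
    rw [hrange]
    omega
  · intro F hF
    obtain ⟨h, h1, h2⟩ := hex (Multiplicative.ofAdd 1)
    exact sum_eq_zero h h1 (by rw [h2]; decide) hF
  · rw [map_pow, himg]

end Fermat.Agent.ZCm
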