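import Fermat.Agent.ZCm.Nbr
import Fermat.Agent.TorsCmp.Hecke
import Mathlib.NumberTheory.NumberField.Basic

/-!
# Fixed points of the Fricke involution and the class group of `ℤ[√-N]`
-/

set_option autoImplicit false
set_option linter.unusedSectionVars false

noncomputable section

open Module nonZeroDivisors MatrixGroups CongruenceSubgroup

namespace Fermat.Agent.ZCm

open Fermat.Agent.TorsCmp (Cos rep)

/-- representatives for the Hecke correspondence `T_l` -/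
def dl (N l : ℕ) [NeZero N] [NeZero l] (c : Cos N l) : Matrix (Fin 2) (Fin 2) ℤ :=
  !![(l : ℤ), 0; 0, 1] * (((rep (Gamma0 (N * l)) c : Gamma0 N) : SL(2, ℤ)) :
    Matrix (Fin 2) (Fin 2) ℤ)

section Aux

variable {N l : ℕ} {A A' : Matrix (Fin 2) (Fin 2) ℤ}

theorem delta_iff (ρ : SL(2, ℤ)) :
    (!![(l : ℤ), 0; 0, 1] * (ρ : Matrix (Fin 2) (Fin 2) ℤ)) * A =
      A' * (!![(l : ℤ), 0; 0, 1] * (ρ : Matrix (Fin 2) (Fin 2) ℤ)) ↔
    !![(l : ℤ), 0; 0, 1] * cj ρ A = A' * !![(l : ℤ), 0; 0, 1] := by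
  rw [mul_assoc, mul_eq_cj_mul, ← mul_assoc, ← mul_assoc]
  constructor
  · intro h
    have h1 := congrArg (fun M => M * ((ρ⁻¹ : SL(2, ℤ)) : Matrix (Fin 2) (Fin 2) ℤ)) h
    simp only [mul_assoc _ _ ((ρ⁻¹ : SL(2, ℤ)) : Matrix (Fin 2) (Fin 2) ℤ), coe_mul_inv',
      mul_one] at h1
    exact h1
  · intro h
    rw [h]

theorem delta_entries {B : Matrix (Fin 2) (Fin 2) ℤ}
    (h : !![(l : ℤ), 0; 0, 1] * B = A' * !![(l : ℤ), 0; 0, 1]) :
    B 1 0 = l * A' 1 0 ∧ l * B 0 0 = A' 0 0 * l := by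
  have e00 := congrFun (congrFun h 0) 0
  have e10 := congrFun (congrFun h 1) 0
  simp [Matrix.mul_apply, Fin.sum_univ_two] at e00 e10
  exact ⟨by linarith, by simpa using e00⟩

/-- the neighbour -/
def nb (l : ℕ) (B : Matrix (Fin 2) (Fin 2) ℤ) : Matrix (Fin 2) (Fin 2) ℤ :=
  !![B 0 0, l * B 0 1; B 1 0 / l, B 1 1]

theorem nb_delta {B : Matrix (Fin 2) (Fin 2) ℤ} (h : (l : ℤ) ∣ B 1 0) :
    !![(l : ℤ), 0; 0, 1] * B = nb l B * !![(l : ℤ), 0; 0, 1] := by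
  ext i j
  fin_cases i <;> fin_cases j <;>
    simp [Matrix.mul_apply, Fin.sum_univ_two, nb, Int.ediv_mul_cancel h]
  ring

theorem nb_fx (hl : l.Prime) (hlN : ¬ l ∣ N) {B : Matrix (Fin 2) (Fin 2) ℤ} (hB : Fx N B)
    (h : (l : ℤ) ∣ B 1 0) : Fx N (nb l B) := by
  obtain ⟨k, hk⟩ := h
  have hl0 : (l : ℤ) ≠ 0 := by exact_mod_cast hl.ne_zero
  have hlpos : (0 : ℤ) < l := by exact_mod_cast hl.pos
  have e : nb l B 1 0 = k := by
    show B 1 0 / l = k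
    rw [hk, Int.mul_ediv_cancel_left _ hl0]
  have hpos : 0 < k := by
    have := hB.pos
    rw [hk] at this
    exact (mul_pos_iff_of_pos_left hlpos).1 this
  have hM : Mx N (nb l B) := by
    refine mx_iff.2 ⟨hB.mx.a11, ?_, by rw [e]; exact hpos⟩
    rw [e]
    show B 0 0 ^ 2 + l * B 0 1 * k = _
    have := hB.mx.eqn
    rw [hk] at this
    linear_combination this
  refine ⟨hM.tr, hM.det, hB.d0, ?_, hM.pos⟩
  rw [e]
  have h1 := hB.d1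
  rw [hk] at h1
  refine IsCoprime.dvd_of_dvd_mul_left ?_ h1
  exact (Nat.isCoprime_iff_coprime.2 ((Nat.Prime.coprime_iff_not_dvd hl).2 hlN)).symm

end Aux

section Main

variable {R : Type*} [CommRing R] [IsDedekindDomain R] [CharZero R] {N : ℕ} {lam : R}
  (hQ : IsQuad R N lam)

theorem cls_nb {l : ℕ} (hl : l.Prime) (hlN : ¬ l ∣ N) {B C : Matrix (Fin 2) (Fin 2) ℤ}
    (hB : Fx N B) (hC : Mx N C) (h : (l : ℤ) ∣ B 1 0) (hC0 : C 1 0 = l)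
    (hC1 : (l : ℤ) ∣ B 0 0 - C 0 0) (h2 : ¬ (l : ℤ) ∣ 2 * C 0 0) :
    cls hQ B = cls hQ C * cls hQ (nb l B) := by
  obtain ⟨k, hk⟩ := h
  have hl0 : (l : ℤ) ≠ 0 := by exact_mod_cast hl.ne_zero
  have hlpos : (0 : ℤ) < l := by exact_mod_cast hl.pos
  have hlZ : Prime (l : ℤ) := Nat.prime_iff_prime_int.1 hl
  have e : nb l B 1 0 = k := by
    show B 1 0 / l = k
    rw [hk, Int.mul_ediv_cancel_left _ hl0]
  have hD : Mx N !![B 0 0, B 0 1 * k; (l : ℤ), -B 0 0] := by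
    refine mx_iff.2 ⟨rfl, ?_, hlpos⟩
    show B 0 0 ^ 2 + B 0 1 * k * l = _
    have := hB.mx.eqn
    rw [hk] at this
    linear_combination this
  have hCD : cls hQ C = cls hQ !![B 0 0, B 0 1 * k; (l : ℤ), -B 0 0] := by
    refine cls_congr hQ hC hD hC0 ?_
    rw [hC0]
    show (l : ℤ) ∣ C 0 0 - B 0 0
    rwa [← dvd_neg, neg_sub]
  rw [hCD]
  refine cls_mul hQ hB.mx hD (nb_fx hl hlN hB ⟨k, hk⟩).mx ?_ rfl rfl ?_
  · rw [e, hk]; rfl
  · show IsCoprime (l : ℤ) (2 * B 0 0)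
    rw [Prime.coprime_iff_not_dvd hlZ]
    intro h3
    apply h2
    have : 2 * C 0 0 = 2 * B 0 0 - 2 * (B 0 0 - C 0 0) := by ring
    rw [this]
    exact dvd_sub h3 (dvd_mul_of_dvd_right hC1 _)

/-- an ideal of prime norm -/
theorem exists_of_prime_norm [Module.Free ℤ R] [Module.Finite ℤ R] {l : ℕ} (hl : l.Prime)
    {I : Ideal R} (hI : Ideal.absNorm I = l) :
    ∃ (C : Matrix (Fin 2) (Fin 2) ℤ) (hC : Mx N C), C 1 0 = l ∧ I = J hQ C hC := by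
  have hI0 : I ≠ ⊥ := by
    rintro rfl
    rw [Ideal.absNorm_bot] at hI
    exact hl.ne_zero hI.symm
  obtain ⟨m, C, hC, hm, h⟩ := exists_matrix hQ I hI0
  have h1 : Ideal.absNorm I = (m ^ 2).natAbs * (C 1 0).natAbs := by
    rw [h, map_mul, absNorm_J, Ideal.absNorm_span_singleton]
    have := Algebra.norm_algebraMap_of_basis hQ.basis m
    rw [Fintype.card_fin] at this
    rw [← this]
    rfl
  have hm1 : m = 1 := by
    rw [h1, Int.natAbs_pow] at hI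
    have h2 : m.natAbs ∣ l := by
      rw [← hI]
      exact dvd_mul_of_dvd_left (dvd_pow_self _ two_ne_zero) _
    rcases (Nat.dvd_prime hl).1 h2 with h3 | h3
    · omega
    · rw [h3] at hI
      have h4 : l * (l * (C 1 0).natAbs) = l * 1 := by rw [← mul_assoc, ← pow_two, hI, mul_one]
      have h5 := Nat.eq_of_mul_eq_mul_left hl.pos h4
      exact absurd (Nat.eq_one_of_mul_eq_one_right h5) hl.one_lt.ne'
  subst hm1
  refine ⟨C, hC, ?_, ?_⟩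
  · rw [h1] at hI
    have := hC.pos
    simp at hI
    omega
  · rw [h]; simp

/-- the neighbours of a class -/
theorem neighbours [Module.Free ℤ R] [Module.Finite ℤ R] [NeZero N] (l : ℕ) [NeZero l]
    (hl : l.Prime) (hl2 : l ≠ 2) (hlN : ¬ l ∣ N)
    (I : (Ideal R)⁰) (hI : Ideal.absNorm (I : Ideal R) = l)
    (A : Matrix (Fin 2) (Fin 2) ℤ) (hA : Fx N A) :
    ∃ c₁ c₂ : Cos N l, c₁ ≠ c₂ ∧ ∃ A₁ A₂, Fx N A₁ ∧ Fx N A₂ ∧
      dl N l c₁ * A = A₁ * dl N l c₁ ∧ dl N l c₂ * A = A₂ * dl N l c₂ ∧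
      cls hQ A₁ = cls hQ A * ClassGroup.mk0 I ∧ cls hQ A₂ = cls hQ A * (ClassGroup.mk0 I)⁻¹ ∧
      ∀ c A', dl N l c * A = A' * dl N l c → c = c₁ ∨ c = c₂ := by
  have hN : 0 < N := NeZero.pos N
  have hlZ : Prime (l : ℤ) := Nat.prime_iff_prime_int.1 hl
  obtain ⟨C, hC, hC1, hIC⟩ := exists_of_prime_norm hQ hl hI
  set r := C 0 0 with hr
  have hrel : (l : ℤ) ∣ r ^ 2 + N := ⟨-C 0 1, by
    have := hC.eqn
    rw [hC1] at this
    linear_combination this⟩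
  have hr2 : ¬ (l : ℤ) ∣ 2 * r := by
    intro h
    rcases hlZ.dvd_or_dvd h with h1 | h1
    · have h2 : l ∣ 2 := by exact_mod_cast h1
      rcases (Nat.dvd_prime Nat.prime_two).1 h2 with h3 | h3
      · exact hl.one_lt.ne' h3
      · exact hl2 h3
    · apply hlN
      have h2 : (l : ℤ) ∣ N := by
        have : (N : ℤ) = (r ^ 2 + N) - r * r := by ring
        rw [this]
        exact dvd_sub hrel (dvd_mul_of_dvd_left h1 _)
      exact_mod_cast h2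
  have hmkI : ClassGroup.mk0 I = cls hQ C := by
    rw [cls_eq hQ hC]
    congr 1
    exact Subtype.ext hIC
  -- cosets for the two roots
  have hex : ∀ s : ℤ, (l : ℤ) ∣ s ^ 2 + N → ∃ c : Cos N l,
      (l : ℤ) ∣ cj ((rep (Gamma0 (N * l)) c : Gamma0 N) : SL(2, ℤ)) A 1 0 ∧
      (l : ℤ) ∣ cj ((rep (Gamma0 (N * l)) c : Gamma0 N) : SL(2, ℤ)) A 0 0 - s := by
    intro s hs
    obtain ⟨ρ, hρ, h1, h2⟩ := exists_eigen hl hlN hA.mx hs
    let ρ' : Gamma0 N := ⟨ρ, hρ⟩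
    refine ⟨((ρ'⁻¹ : Gamma0 N) : Cos N l), ?_⟩
    set c : Cos N l := ((ρ'⁻¹ : Gamma0 N) : Cos N l) with hc
    have h3 : (rep (Gamma0 (N * l)) c * ρ'⁻¹ : Gamma0 N) ∈
        (Gamma0 (N * l)).subgroupOf (Gamma0 N) := by
      have := TorsCmp.mk_rep_inv (Gamma0 (N * l)) c
      conv_rhs at this => rw [hc]
      rw [QuotientGroup.eq, inv_inv] at this
      exact this
    rw [Subgroup.mem_subgroupOf] at h3
    set ε : SL(2, ℤ) := ((rep (Gamma0 (N * l)) c * ρ'⁻¹ : Gamma0 N) : SL(2, ℤ)) with hε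
    have h4 : ((rep (Gamma0 (N * l)) c : Gamma0 N) : SL(2, ℤ)) = ε * ρ := by
      rw [hε]
      push_cast
      rw [mul_assoc]
      show _ = _ * (ρ⁻¹ * ρ)
      rw [inv_mul_cancel, mul_one]
    rw [h4, cj_mul]
    refine cj_dvd_of_mem (cj_11 ρ hA.mx.a11) ?_ h1 h2
    rw [mem_G0] at h3
    exact dvd_trans (by push_cast; exact dvd_mul_left _ _) h3
  have huniq : ∀ (c c' : Cos N l) (s : ℤ),
      (l : ℤ) ∣ cj ((rep (Gamma0 (N * l)) c : Gamma0 N) : SL(2, ℤ)) A 1 0 →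
      (l : ℤ) ∣ cj ((rep (Gamma0 (N * l)) c' : Gamma0 N) : SL(2, ℤ)) A 1 0 →
      (l : ℤ) ∣ cj ((rep (Gamma0 (N * l)) c : Gamma0 N) : SL(2, ℤ)) A 0 0 - s →
      (l : ℤ) ∣ cj ((rep (Gamma0 (N * l)) c' : Gamma0 N) : SL(2, ℤ)) A 0 0 - s →
      ¬ (l : ℤ) ∣ 2 * s → c = c' := by
    intro c c' s h1 h1' h2 h2' hs
    have h3 := dvd_of_eigen hl hA.mx.a11 h1 h1' h2 h2' hs
    rw [← TorsCmp.rep_mul_inv_mem_iff (Gamma0 (N * l)) c c', mem_G0]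
    push_cast
    refine IsCoprime.mul_dvd ?_ ?_ h3
    · exact (Nat.isCoprime_iff_coprime.2 ((Nat.Prime.coprime_iff_not_dvd hl).2 hlN)).symm
    · exact mem_G0.1 (rep (Gamma0 (N * l)) c * (rep (Gamma0 (N * l)) c')⁻¹ : Gamma0 N).2
  have hr2' : ¬ (l : ℤ) ∣ 2 * (-r) := by
    rw [mul_neg, dvd_neg]; exact hr2
  obtain ⟨c₂, hc2, hc2'⟩ := hex r hrel
  obtain ⟨c₁, hc1, hc1'⟩ := hex (-r) (by rwa [neg_sq])
  set B₁ := cj ((rep (Gamma0 (N * l)) c₁ : Gamma0 N) : SL(2, ℤ)) A with hB₁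
  set B₂ := cj ((rep (Gamma0 (N * l)) c₂ : Gamma0 N) : SL(2, ℤ)) A with hB₂
  have fB₁ : Fx N B₁ := hA.cj hN (rep (Gamma0 (N * l)) c₁ : Gamma0 N).2
  have fB₂ : Fx N B₂ := hA.cj hN (rep (Gamma0 (N * l)) c₂ : Gamma0 N).2
  have cB₁ : cls hQ A = cls hQ B₁ := cls_eq_of_mul hQ hA.mx fB₁.mx (mul_eq_cj_mul _ A)
  have cB₂ : cls hQ A = cls hQ B₂ := cls_eq_of_mul hQ hA.mx fB₂.mx (mul_eq_cj_mul _ A)
  -- the conjugate ideal
  have hD : Mx N !![-r, C 0 1; (l : ℤ), r] := by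
    refine mx_iff.2 ⟨by simp, ?_, (by exact_mod_cast hl.pos : (0 : ℤ) < (l : ℤ))⟩
    show (-r) ^ 2 + C 0 1 * l = _
    have := hC.eqn
    rw [hC1] at this
    linear_combination this
  have hCD : cls hQ C * cls hQ !![-r, C 0 1; (l : ℤ), r] = 1 :=
    cls_mul_conj hQ hC hD hC1 rfl (by
      rw [hC1, Prime.coprime_iff_not_dvd hlZ]; exact hr2)
  have n₁ : cls hQ B₁ = cls hQ !![-r, C 0 1; (l : ℤ), r] * cls hQ (nb l B₁) :=
    cls_nb hQ hl hlN fB₁ hD hc1 rfl hc1' hr2'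
  have n₂ : cls hQ B₂ = cls hQ C * cls hQ (nb l B₂) :=
    cls_nb hQ hl hlN fB₂ hC hc2 hC1 hc2' hr2
  refine ⟨c₁, c₂, ?_, nb l B₁, nb l B₂, nb_fx hl hlN fB₁ hc1, nb_fx hl hlN fB₂ hc2,
    (delta_iff _).2 (nb_delta hc1), (delta_iff _).2 (nb_delta hc2), ?_, ?_, ?_⟩
  · rintro rfl
    apply hr2
    have : 2 * r = (B₁ 0 0 - -r) - (B₁ 0 0 - r) := by ring
    rw [this]
    exact dvd_sub hc1' hc2'
  · rw [hmkI, cB₁, n₁, mul_comm (cls hQ !![-r, C 0 1; (l : ℤ), r]), mul_assoc,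
      mul_comm (cls hQ !![-r, C 0 1; (l : ℤ), r]), hCD, mul_one]
  · rw [hmkI, cB₂, n₂, mul_comm (cls hQ C), mul_assoc, mul_inv_cancel, mul_one]
  · intro c A' h
    have h1 := (delta_iff _).1 h
    obtain ⟨h2, -⟩ := delta_entries h1
    set B := cj ((rep (Gamma0 (N * l)) c : Gamma0 N) : SL(2, ℤ)) A with hB
    have hd : (l : ℤ) ∣ B 1 0 := ⟨_, h2⟩
    have hBm : Fx N B := hA.cj hN (rep (Gamma0 (N * l)) c : Gamma0 N).2
    have h3 : (l : ℤ) ∣ (B 0 0 - r) * (B 0 0 - -r) := by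
      have e : (B 0 0 - r) * (B 0 0 - -r) = -(B 0 1 * B 1 0) - (r ^ 2 + N) := by
        linear_combination hBm.mx.eqn
      rw [e]
      exact dvd_sub (dvd_neg.2 (dvd_mul_of_dvd_right hd _)) hrel
    rcases hlZ.dvd_or_dvd h3 with h4 | h4
    · right
      exact huniq c c₂ r hd hc2 h4 hc2' hr2
    · left
      exact huniq c c₁ (-r) hd hc1 h4 hc1' hr2'

include hQ in
/-- ideals of norm `l` when `-N` is a square modulo `l` -/
theorem exists_ideal [Module.Free ℤ R] [Module.Finite ℤ R] (l : ℕ) (hl : l.Prime) (r : ℤ)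
    (hr : (l : ℤ) ∣ r ^ 2 + N) : ∃ I : Ideal R, Ideal.absNorm I = l := by
  obtain ⟨b, hb⟩ := hr
  have hC : Mx N !![r, -b; (l : ℤ), -r] := by
    refine mx_iff.2 ⟨rfl, ?_, (by exact_mod_cast hl.pos : (0 : ℤ) < (l : ℤ))⟩
    show r ^ 2 + -b * l = _
    linear_combination hb
  exact ⟨J hQ _ hC, by rw [absNorm_J]; rfl⟩

include hQ in
theorem exists_cls_aux [Module.Free ℤ R] [Module.Finite ℤ R] [NeZero N] (hsq : Squarefree N) :
    ∃ cl : Matrix (Fin 2) (Fin 2) ℤ → ClassGroup R,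
      (∀ A B, Fx N A → Fx N B → (cl A = cl B ↔ ∃ γ ∈ Gamma0 N,
        (γ : Matrix (Fin 2) (Fin 2) ℤ) * A = B * (γ : Matrix (Fin 2) (Fin 2) ℤ))) ∧
      (∀ c, ∃ A, Fx N A ∧ cl A = c) ∧
      (∀ (l : ℕ) [NeZero l], l.Prime → l ≠ 2 → ¬ l ∣ N → ∀ I : (Ideal R)⁰,
        Ideal.absNorm (I : Ideal R) = l → ∀ A, Fx N A →
        ∃ c₁ c₂ : Cos N l, c₁ ≠ c₂ ∧ ∃ A₁ A₂, Fx N A₁ ∧ Fx N A₂ ∧
          dl N l c₁ * A = A₁ * dl N l c₁ ∧ dl N l c₂ * A = A₂ * dl N l c₂ ∧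
          cl A₁ = cl A * ClassGroup.mk0 I ∧ cl A₂ = cl A * (ClassGroup.mk0 I)⁻¹ ∧
          ∀ c A', dl N l c * A = A' * dl N l c → c = c₁ ∨ c = c₂) := by
  have hN : 0 < N := NeZero.pos N
  refine ⟨cls hQ, ?_, ?_, ?_⟩
  · intro A B hA hB
    constructor
    · intro h
      obtain ⟨γ, hγ⟩ := exists_gamma hQ hA.mx hB.mx h
      exact ⟨γ, gamma_mem hN hA hB hγ, hγ⟩
    · rintro ⟨γ, -, hγ⟩
      exact cls_eq_of_mul hQ hA.mx hB.mx hγ
  · intro c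
    obtain ⟨I, rfl⟩ := ClassGroup.mk0_surjective c
    obtain ⟨m, A, hA, hm, h⟩ := exists_matrix hQ (I : Ideal R) (nonZeroDivisors.coe_ne_zero I)
    obtain ⟨γ, hγ⟩ := exists_fx hN hsq hA
    refine ⟨cj γ A, hγ, ?_⟩
    rw [← cls_eq_of_mul hQ hA hγ.mx (mul_eq_cj_mul γ A), cls_eq hQ hA,
      ClassGroup.mk0_eq_mk0_iff]
    refine ⟨(m : R), 1, by exact_mod_cast hm.ne', one_ne_zero, ?_⟩
    rw [h]
    simp
  · intro l _ hl hl2 hlN I hI A hA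
    exact neighbours hQ l hl hl2 hlN I hI A hA

end Main

end Fermat.Agent.ZCm
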