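import Fermat.Agent.ZCm.Mat
import Mathlib.NumberTheory.ModularForms.CongruenceSubgroups

/-!
# The class map: injectivity, surjectivity, multiplicativity
-/

set_option autoImplicit false
set_option linter.unusedSectionVars false

noncomputable section

open Module nonZeroDivisors MatrixGroups CongruenceSubgroup

namespace Fermat.Agent.ZCm

variable {R : Type*} [CommRing R] [IsDedekindDomain R] [CharZero R] {N : ℕ} {lam : R}
  (hQ : IsQuad R N lam)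

include hQ in
theorem det_rel {A B : Matrix (Fin 2) (Fin 2) ℤ} {x₀ x₁ y₀ y₁ g00 g01 g10 g11 : ℤ}
    (e₀ : (x₀ + x₁ * lam) * A 1 0 = (y₀ + y₁ * lam) * (g00 * B 1 0 + g10 * (lam - B 0 0)))
    (e₁ : (x₀ + x₁ * lam) * (lam - A 0 0) =
      (y₀ + y₁ * lam) * (g01 * B 1 0 + g11 * (lam - B 0 0))) :
    A 1 0 * (x₀ ^ 2 + N * x₁ ^ 2) =
      (g00 * g11 - g01 * g10) * (B 1 0 * (y₀ ^ 2 + N * y₁ ^ 2)) := by
  have hsq := hQ.sq
  obtain ⟨E1, E2⟩ := hQ.ext (u := A 1 0 * x₀) (v := A 1 0 * x₁)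
    (u' := g00 * B 1 0 * y₀ + g10 * (-B 0 0 * y₀ - N * y₁))
    (v' := g00 * B 1 0 * y₁ + g10 * (y₀ - B 0 0 * y₁)) (by
      push_cast
      linear_combination e₀ + (g10 : R) * y₁ * hsq)
  obtain ⟨E3, E4⟩ := hQ.ext (u := -A 0 0 * x₀ - N * x₁) (v := x₀ - A 0 0 * x₁)
    (u' := g01 * B 1 0 * y₀ + g11 * (-B 0 0 * y₀ - N * y₁))
    (v' := g01 * B 1 0 * y₁ + g11 * (y₀ - B 0 0 * y₁)) (by
      push_cast
      linear_combination e₁ + ((g11 : R) * y₁ - x₁) * hsq)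
  linear_combination (x₀ - A 0 0 * x₁) * E1
    + (g00 * B 1 0 * y₀ + g10 * (-B 0 0 * y₀ - N * y₁)) * E4
    - (-A 0 0 * x₀ - N * x₁) * E2 - (g00 * B 1 0 * y₁ + g10 * (y₀ - B 0 0 * y₁)) * E3

include hQ in
theorem norm_pos {x₀ x₁ : ℤ} (hx : (x₀ : R) + x₁ * lam ≠ 0) : 0 < x₀ ^ 2 + N * x₁ ^ 2 := by
  have hN : (0 : ℤ) < N := by exact_mod_cast hQ.pos
  by_cases h1 : x₁ = 0
  · have h0 : x₀ ≠ 0 := by
      rintro rfl
      rw [h1] at hx
      simp at hx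
    have := sq_pos_of_ne_zero h0
    nlinarith [sq_nonneg x₁]
  · have := sq_pos_of_ne_zero h1
    nlinarith [sq_nonneg x₀]

theorem exists_gamma {A B : Matrix (Fin 2) (Fin 2) ℤ} (hA : Mx N A) (hB : Mx N B)
    (h : cls hQ A = cls hQ B) :
    ∃ γ : SL(2, ℤ), (γ : Matrix (Fin 2) (Fin 2) ℤ) * A = B * γ := by
  rw [cls_eq hQ hA, cls_eq hQ hB, ClassGroup.mk0_eq_mk0_iff] at h
  obtain ⟨x, y, hx, hy, h⟩ := h
  change Ideal.span {x} * J hQ A hA = Ideal.span {y} * J hQ B hB at h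
  -- coordinates
  have aux : ∀ s ∈ J hQ A hA, ∃ u v : ℤ, x * s = y * (u * (B 1 0 : R) + v * (lam - B 0 0)) := by
    intro s hs
    have h1 : x * s ∈ Ideal.span {x} * J hQ A hA :=
      Ideal.mul_mem_mul (Ideal.mem_span_singleton_self x) hs
    rw [h, Ideal.mem_span_singleton_mul] at h1
    obtain ⟨z, ⟨u, v, rfl⟩, h2⟩ := h1
    exact ⟨u, v, h2.symm⟩
  have aux' : ∀ s ∈ J hQ B hB, ∃ u v : ℤ, y * s = x * (u * (A 1 0 : R) + v * (lam - A 0 0)) := by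
    intro s hs
    have h1 : y * s ∈ Ideal.span {y} * J hQ B hB :=
      Ideal.mul_mem_mul (Ideal.mem_span_singleton_self y) hs
    rw [← h, Ideal.mem_span_singleton_mul] at h1
    obtain ⟨z, ⟨u, v, rfl⟩, h2⟩ := h1
    exact ⟨u, v, h2.symm⟩
  obtain ⟨g00, g10, G0⟩ := aux (A 1 0 : R) ⟨1, 0, by simp⟩
  obtain ⟨g01, g11, G1⟩ := aux (lam - A 0 0) ⟨0, 1, by simp⟩
  obtain ⟨h00, h10, H0⟩ := aux' (B 1 0 : R) ⟨1, 0, by simp⟩
  obtain ⟨h01, h11, H1⟩ := aux' (lam - B 0 0) ⟨0, 1, by simp⟩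
  obtain ⟨x₀, x₁, rfl⟩ := hQ.gen x
  obtain ⟨y₀, y₁, rfl⟩ := hQ.gen y
  have d1 := det_rel hQ G0 G1
  have d2 := det_rel hQ H0 H1
  have px := norm_pos hQ hx
  have py := norm_pos hQ hy
  have pA := mul_pos hA.pos px
  have pB := mul_pos hB.pos py
  have hd : g00 * g11 - g01 * g10 = 1 := by
    have h1 : (g00 * g11 - g01 * g10) * (h00 * h11 - h01 * h10) = 1 := by
      rw [d2] at d1
      have : (A 1 0 * (x₀ ^ 2 + N * x₁ ^ 2)) *
          ((g00 * g11 - g01 * g10) * (h00 * h11 - h01 * h10) - 1) = 0 := by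
        linear_combination -d1
      have := (mul_eq_zero.1 this).resolve_left pA.ne'
      linarith
    have h2 : 0 < g00 * g11 - g01 * g10 := by
      rw [d1] at pA
      exact (mul_pos_iff_of_pos_right pB).1 pA
    rcases Int.eq_one_or_neg_one_of_mul_eq_one h1 with h3 | h3
    · exact h3
    · omega
  refine ⟨⟨!![g00, g01; g10, g11], by rw [Matrix.det_fin_two_of, hd]⟩, ?_⟩
  -- commutation
  have hBc : (B 1 0 : ℤ) ≠ 0 := hB.pos.ne'
  have huniq : ∀ u v u' v' : ℤ, (y₀ + y₁ * lam) * (u * (B 1 0 : R) + v * (lam - B 0 0)) =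
      (y₀ + y₁ * lam) * (u' * (B 1 0 : R) + v' * (lam - B 0 0)) → u = u' ∧ v = v' := by
    intro u v u' v' h1
    have h2 := mul_left_cancel₀ hy h1
    obtain ⟨h3, h4⟩ := hQ.ext (u := u * B 1 0 - v * B 0 0) (v := v)
      (u' := u' * B 1 0 - v' * B 0 0) (v' := v') (by push_cast; linear_combination h2)
    subst h4
    refine ⟨?_, rfl⟩
    have : (u - u') * B 1 0 = 0 := by linear_combination h3
    have := (mul_eq_zero.1 this).resolve_right hBc
    linarith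
  have hA1 := hA.eqnR R
  have hA2 : (A 1 1 : R) = -A 0 0 := by exact_mod_cast hA.a11
  have hB1 := hB.eqnR R
  have hB2 : (B 1 1 : R) = -B 0 0 := by exact_mod_cast hB.a11
  obtain ⟨E0, E1⟩ := huniq (A 0 0 * g00 + A 1 0 * g01) (A 0 0 * g10 + A 1 0 * g11)
    (B 0 0 * g00 + B 0 1 * g10) (B 1 0 * g00 + B 1 1 * g10) (by
      push_cast
      rw [hB2]
      linear_combination -(A 0 0 : R) * G0 - (A 1 0 : R) * G1 + lam * G0
        + (y₀ + y₁ * lam) * g10 * hQ.sq - (y₀ + y₁ * lam) * g10 * hB1)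
  obtain ⟨E2, E3⟩ := huniq (A 0 1 * g00 + A 1 1 * g01) (A 0 1 * g10 + A 1 1 * g11)
    (B 0 0 * g01 + B 0 1 * g11) (B 1 0 * g01 + B 1 1 * g11) (by
      push_cast
      rw [hB2, hA2]
      linear_combination -(A 0 1 : R) * G0 + (A 0 0 : R) * G1 + lam * G1
        + (y₀ + y₁ * lam) * g11 * hQ.sq - (y₀ + y₁ * lam) * g11 * hB1
        + (x₀ + x₁ * lam) * hA1 - (x₀ + x₁ * lam) * hQ.sq)
  ext i j
  fin_cases i <;> fin_cases j <;>
    simp [Matrix.mul_apply, Fin.sum_univ_two] <;> linarith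

/-- the structure of ideals -/
theorem exists_matrix (I : Ideal R) (hI : I ≠ ⊥) :
    ∃ (m : ℤ) (A : Matrix (Fin 2) (Fin 2) ℤ) (hA : Mx N A), 0 < m ∧
      I = Ideal.span {(m : R)} * J hQ A hA := by
  have hsq := hQ.sq
  have hN : (0 : ℤ) < N := by exact_mod_cast hQ.pos
  obtain ⟨k, hkpos, hk⟩ : ∃ k : ℤ, 0 < k ∧ ∀ n : ℤ, (n : R) ∈ I ↔ k ∣ n := by
    obtain ⟨k, hk⟩ := (IsPrincipalIdealRing.principal (I.comap (Int.castRingHom R))).principal
    have hk1 : ∀ n : ℤ, (n : R) ∈ I ↔ k ∣ n := by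
      intro n
      have : n ∈ I.comap (Int.castRingHom R) ↔ n ∈ Ideal.span {k} := by rw [hk]
      rw [Ideal.mem_comap, Ideal.mem_span_singleton] at this
      exact this
    refine ⟨|k|, abs_pos.2 ?_, fun n => by rw [hk1, abs_dvd]⟩
    rintro rfl
    obtain ⟨x, hx, hx0⟩ := Submodule.exists_mem_ne_zero_of_ne_bot hI
    obtain ⟨p, q, rfl⟩ := hQ.gen x
    have h1 : ((p ^ 2 + N * q ^ 2 : ℤ) : R) ∈ I := by
      have : ((p ^ 2 + N * q ^ 2 : ℤ) : R) = (p - q * lam) * (p + q * lam) := by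
        push_cast
        linear_combination (q : R) ^ 2 * hsq
      rw [this]
      exact I.mul_mem_left _ hx
    rw [hk1, zero_dvd_iff] at h1
    exact (norm_pos hQ hx0).ne' h1
  obtain ⟨m, hmpos, hm⟩ : ∃ m : ℤ, 0 < m ∧
      ∀ q : ℤ, (∃ p : ℤ, (p : R) + q * lam ∈ I) ↔ m ∣ q := by
    let H : Ideal ℤ :=
      { carrier := {q | ∃ p : ℤ, (p : R) + q * lam ∈ I}
        zero_mem' := ⟨0, by simp⟩
        add_mem' := by
          rintro a b ⟨p, hp⟩ ⟨p', hp'⟩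
          refine ⟨p + p', ?_⟩
          have := I.add_mem hp hp'
          convert this using 1
          push_cast; ring
        smul_mem' := by
          rintro c a ⟨p, hp⟩
          refine ⟨c * p, ?_⟩
          have := I.mul_mem_left (c : R) hp
          convert this using 1
          simp only [smul_eq_mul]
          push_cast; ring }
    obtain ⟨m, hm⟩ := (IsPrincipalIdealRing.principal H).principal
    have hm1 : ∀ q : ℤ, (∃ p : ℤ, (p : R) + q * lam ∈ I) ↔ m ∣ q := by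
      intro q
      have : q ∈ H ↔ q ∈ Ideal.span {m} := by rw [hm]
      rw [Ideal.mem_span_singleton] at this
      exact this
    refine ⟨|m|, abs_pos.2 ?_, fun n => by rw [hm1, abs_dvd]⟩
    rintro rfl
    have h1 : (0 : ℤ) ∣ k := (hm1 k).1 ⟨0, by
      have : ((0 : ℤ) : R) + k * lam = lam * k := by push_cast; ring
      rw [this]
      exact I.mul_mem_left _ ((hk k).2 dvd_rfl)⟩
    exact hkpos.ne' (zero_dvd_iff.1 h1)
  obtain ⟨p₀, hp₀⟩ := (hm m).2 dvd_rfl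
  obtain ⟨c, hc⟩ : m ∣ k := (hm k).1 ⟨0, by
    have : ((0 : ℤ) : R) + k * lam = lam * k := by push_cast; ring
    rw [this]
    exact I.mul_mem_left _ ((hk k).2 dvd_rfl)⟩
  obtain ⟨a', ha'⟩ : m ∣ p₀ := (hm p₀).1 ⟨-(m * N), by
    have : ((-(m * N) : ℤ) : R) + p₀ * lam = lam * (p₀ + m * lam) := by
      push_cast; linear_combination -(m : R) * hsq
    rw [this]
    exact I.mul_mem_left _ hp₀⟩
  obtain ⟨b, hb⟩ : k ∣ -(m * (N + a' ^ 2)) := (hk _).1 (by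
    have : ((-(m * (N + a' ^ 2)) : ℤ) : R) = (lam - a') * (p₀ + m * lam) := by
      rw [ha']
      push_cast
      linear_combination -(m : R) * hsq
    rw [this]
    exact I.mul_mem_left _ hp₀)
  have hcpos : 0 < c := by
    rw [hc] at hkpos
    exact (mul_pos_iff_of_pos_left hmpos).1 hkpos
  have hA : Mx N !![-a', b; c, a'] := by
    refine mx_iff.2 ⟨by simp, ?_, by simpa using hcpos⟩
    show (-a') ^ 2 + b * c = -(N : ℤ)
    have : m * (N + a' ^ 2 + b * c) = 0 := by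
      rw [hc] at hb
      linear_combination -hb
    have := (mul_eq_zero.1 this).resolve_left hmpos.ne'
    linarith
  refine ⟨m, _, hA, hmpos, ?_⟩
  have e1 : (lam - ((!![-a', b; c, a'] : Matrix (Fin 2) (Fin 2) ℤ) 0 0 : ℤ) : R) = lam + a' := by
    show lam - ((-a' : ℤ) : R) = _
    push_cast; ring
  have e2 : (((!![-a', b; c, a'] : Matrix (Fin 2) (Fin 2) ℤ) 1 0 : ℤ) : R) = c := rfl
  ext x
  rw [Ideal.mem_span_singleton_mul]
  constructor
  · intro hx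
    obtain ⟨p, q, rfl⟩ := hQ.gen x
    obtain ⟨v, hv⟩ := (hm q).1 ⟨p, hx⟩
    obtain ⟨u, hu⟩ := (hk (p - v * p₀)).1 (by
      have : ((p - v * p₀ : ℤ) : R) = (p + q * lam) - v * (p₀ + m * lam) := by
        rw [hv]; push_cast; ring
      rw [this]
      exact I.sub_mem hx (I.mul_mem_left _ hp₀))
    refine ⟨u * (c : R) + v * (lam + a'), ?_, ?_⟩
    · rw [mem_J]
      exact ⟨u, v, by rw [e1, e2]⟩
    · have hp : p = v * p₀ + k * u := by linarith
      rw [hp, hv, ha', hc]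
      push_cast
      ring
  · rintro ⟨z, hz, rfl⟩
    rw [mem_J] at hz
    obtain ⟨u, v, rfl⟩ := hz
    rw [e1, e2]
    have : (m : R) * (u * (c : R) + v * (lam + a')) = u * (k : R) + v * (p₀ + m * lam) := by
      rw [hc, ha']; push_cast; ring
    rw [this]
    exact I.add_mem (I.mul_mem_left _ ((hk k).2 dvd_rfl)) (I.mul_mem_left _ hp₀)

theorem J_congr {A B : Matrix (Fin 2) (Fin 2) ℤ} (hA : Mx N A) (hB : Mx N B)
    (h : A 1 0 = B 1 0) (h' : A 1 0 ∣ A 0 0 - B 0 0) : J hQ A hA = J hQ B hB := by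
  obtain ⟨k, hk⟩ := h'
  have hk' : (A 0 0 : R) = B 0 0 + A 1 0 * k := by
    have : A 0 0 = B 0 0 + A 1 0 * k := by linarith
    exact_mod_cast congrArg (Int.cast : ℤ → R) this
  ext x
  rw [mem_J, mem_J]
  constructor
  · rintro ⟨u, v, rfl⟩
    refine ⟨u - v * k, v, ?_⟩
    rw [hk', ← h]
    push_cast
    ring
  · rintro ⟨u, v, rfl⟩
    refine ⟨u + v * k, v, ?_⟩
    rw [hk', ← h]
    push_cast
    ring

theorem cls_congr {A B : Matrix (Fin 2) (Fin 2) ℤ} (hA : Mx N A) (hB : Mx N B)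
    (h : A 1 0 = B 1 0) (h' : A 1 0 ∣ A 0 0 - B 0 0) : cls hQ A = cls hQ B := by
  rw [cls_eq hQ hA, cls_eq hQ hB]
  congr 1
  exact Subtype.ext (J_congr hQ hA hB h h')

theorem J_mul {A C D : Matrix (Fin 2) (Fin 2) ℤ} (hA : Mx N A) (hC : Mx N C) (hD : Mx N D)
    (h10 : A 1 0 = C 1 0 * D 1 0) (hC0 : C 0 0 = A 0 0) (hD0 : D 0 0 = A 0 0)
    (hcop : IsCoprime (C 1 0) (2 * A 0 0)) : J hQ A hA = J hQ C hC * J hQ D hD := by
  obtain ⟨r, s, hrs⟩ := hcop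
  have h1 := hA.eqnR R
  have hrs' : (r : R) * C 1 0 + s * (2 * A 0 0) = 1 := by exact_mod_cast hrs
  have h10' : (A 1 0 : R) = C 1 0 * D 1 0 := by exact_mod_cast h10
  have hsq := hQ.sq
  rw [h10'] at h1
  apply le_antisymm
  · intro x hx
    obtain ⟨u, v, rfl⟩ := (mem_J hQ).1 hx
    have mC0 : (C 1 0 : R) ∈ J hQ C hC := ⟨1, 0, by simp⟩
    have mC1 : (lam - A 0 0 : R) ∈ J hQ C hC := ⟨0, 1, by rw [hC0]; simp⟩
    have mD0 : (D 1 0 : R) ∈ J hQ D hD := ⟨1, 0, by simp⟩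
    have mD1 : (lam - A 0 0 : R) ∈ J hQ D hD := ⟨0, 1, by rw [hD0]; simp⟩
    have e : (u : R) * (A 1 0 : R) + v * (lam - A 0 0) =
        (u + v * s * A 0 1) * (C 1 0 * D 1 0) + v * r * (C 1 0 * (lam - A 0 0)) +
          (-(v * s)) * ((lam - A 0 0) * (lam - A 0 0)) := by
      rw [h10']
      linear_combination -(v * (lam - A 0 0)) * hrs' + (v : R) * s * hsq - (v : R) * s * h1
    rw [e]
    exact Ideal.add_mem _ (Ideal.add_mem _ (Ideal.mul_mem_left _ _ (Ideal.mul_mem_mul mC0 mD0))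
      (Ideal.mul_mem_left _ _ (Ideal.mul_mem_mul mC0 mD1)))
      (Ideal.mul_mem_left _ _ (Ideal.mul_mem_mul mC1 mD1))
  · rw [Ideal.mul_le]
    rintro x ⟨u, v, rfl⟩ y ⟨u', v', rfl⟩
    refine (mem_J hQ).2 ⟨u * u' + v * v' * A 0 1, u * v' * C 1 0 + v * u' * D 1 0
      - 2 * v * v' * A 0 0, ?_⟩
    rw [hC0, hD0, h10']
    push_cast
    linear_combination (v : R) * v' * hsq - (v : R) * v' * h1

theorem cls_mul {A C D : Matrix (Fin 2) (Fin 2) ℤ} (hA : Mx N A) (hC : Mx N C) (hD : Mx N D)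
    (h10 : A 1 0 = C 1 0 * D 1 0) (hC0 : C 0 0 = A 0 0) (hD0 : D 0 0 = A 0 0)
    (hcop : IsCoprime (C 1 0) (2 * A 0 0)) : cls hQ A = cls hQ C * cls hQ D := by
  rw [cls_eq hQ hA, cls_eq hQ hC, cls_eq hQ hD, ← map_mul]
  congr 1
  exact Subtype.ext (J_mul hQ hA hC hD h10 hC0 hD0 hcop)

theorem cls_mul_conj {C D : Matrix (Fin 2) (Fin 2) ℤ} (hC : Mx N C) (hD : Mx N D)
    (h10 : C 1 0 = D 1 0) (h0 : D 0 0 = -C 0 0)
    (hcop : IsCoprime (C 1 0) (2 * C 0 0)) : cls hQ C * cls hQ D = 1 := by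
  obtain ⟨r, s, hrs⟩ := hcop
  have h1 := hC.eqnR R
  have hrs' : (r : R) * C 1 0 + s * (2 * C 0 0) = 1 := by exact_mod_cast hrs
  have h0' : (D 0 0 : R) = - C 0 0 := by exact_mod_cast h0
  have hsq := hQ.sq
  have key : J hQ C hC * J hQ D hD = Ideal.span {(C 1 0 : R)} := by
    apply le_antisymm
    · rw [Ideal.mul_le]
      rintro x ⟨u, v, rfl⟩ y ⟨u', v', rfl⟩
      rw [Ideal.mem_span_singleton]
      refine ⟨u * u' * C 1 0 + u * v' * (lam + C 0 0) + v * u' * (lam - C 0 0)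
        + v * v' * C 0 1, ?_⟩
      rw [h0', ← h10]
      linear_combination (v : R) * v' * hsq - (v : R) * v' * h1
    · rw [Ideal.span_singleton_le_iff_mem]
      have mC0 : (C 1 0 : R) ∈ J hQ C hC := ⟨1, 0, by simp⟩
      have mC1 : (lam - C 0 0 : R) ∈ J hQ C hC := ⟨0, 1, by simp⟩
      have mD0 : (C 1 0 : R) ∈ J hQ D hD := ⟨1, 0, by rw [h10]; simp⟩
      have mD1 : (lam + C 0 0 : R) ∈ J hQ D hD := ⟨0, 1, by rw [h0']; simp⟩
      have e : (C 1 0 : R) = r * (C 1 0 * C 1 0) + s * (C 1 0 * (lam + C 0 0)) +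
          (-s) * ((lam - C 0 0) * C 1 0) := by
        linear_combination -(C 1 0 : R) * hrs'
      rw [e]
      exact Ideal.add_mem _ (Ideal.add_mem _ (Ideal.mul_mem_left _ _ (Ideal.mul_mem_mul mC0 mD0))
        (Ideal.mul_mem_left _ _ (Ideal.mul_mem_mul mC0 mD1)))
        (Ideal.mul_mem_left _ _ (Ideal.mul_mem_mul mC1 mD0))
  rw [cls_eq hQ hC, cls_eq hQ hD, ← map_mul]
  have hne : Ideal.span {(C 1 0 : R)} ∈ (Ideal R)⁰ := by
    rw [← key]
    exact mul_mem (mem_nonZeroDivisors_of_ne_zero (J_ne_bot hQ hC))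
      (mem_nonZeroDivisors_of_ne_zero (J_ne_bot hQ hD))
  have : (⟨J hQ C hC, mem_nonZeroDivisors_of_ne_zero (J_ne_bot hQ hC)⟩ *
      ⟨J hQ D hD, mem_nonZeroDivisors_of_ne_zero (J_ne_bot hQ hD)⟩ : (Ideal R)⁰) =
      ⟨Ideal.span {(C 1 0 : R)}, hne⟩ := Subtype.ext key
  rw [this, ClassGroup.mk0_eq_one_iff]
  exact ⟨⟨_, rfl⟩⟩

end Fermat.Agent.ZCm
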