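import Fermat.Agent.ZCm.Quad
import Mathlib.LinearAlgebra.Matrix.SpecialLinearGroup

/-!
# Integral matrices with square `-N` and ideal classes of `ℤ[√-N]`
-/

set_option autoImplicit false
set_option linter.unusedSectionVars false

noncomputable section

open Module nonZeroDivisors MatrixGroups

namespace Fermat.Agent.ZCm

/-- integral matrices of trace `0`, determinant `N`, positively oriented -/
structure Mx (N : ℕ) (A : Matrix (Fin 2) (Fin 2) ℤ) : Prop where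
  tr : A 0 0 + A 1 1 = 0
  det : A.det = N
  pos : 0 < A 1 0

/-- the fixed point matrices of the Fricke involution -/
structure Fx (N : ℕ) (A : Matrix (Fin 2) (Fin 2) ℤ) : Prop where
  tr : A 0 0 + A 1 1 = 0
  det : A.det = N
  d0 : (N : ℤ) ∣ A 0 0
  d1 : (N : ℤ) ∣ A 1 0
  pos : 0 < A 1 0

theorem Fx.mx {N : ℕ} {A : Matrix (Fin 2) (Fin 2) ℤ} (h : Fx N A) : Mx N A :=
  ⟨h.tr, h.det, h.pos⟩

theorem Mx.a11 {N : ℕ} {A : Matrix (Fin 2) (Fin 2) ℤ} (h : Mx N A) : A 1 1 = -A 0 0 := by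
  linarith [h.tr]

theorem Mx.eqn {N : ℕ} {A : Matrix (Fin 2) (Fin 2) ℤ} (h : Mx N A) :
    A 0 0 ^ 2 + A 0 1 * A 1 0 = -(N : ℤ) := by
  have h1 := h.det
  rw [Matrix.det_fin_two, h.a11] at h1
  linarith

theorem Mx.eqnR {N : ℕ} {A : Matrix (Fin 2) (Fin 2) ℤ} (h : Mx N A) (R : Type*) [CommRing R] :
    (A 0 0 : R) ^ 2 + A 0 1 * A 1 0 = -(N : R) := by
  have := congrArg (Int.cast : ℤ → R) h.eqn
  push_cast at this
  exact this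

theorem mx_iff {N : ℕ} {A : Matrix (Fin 2) (Fin 2) ℤ} : Mx N A ↔
    A 1 1 = -A 0 0 ∧ A 0 0 ^ 2 + A 0 1 * A 1 0 = -(N : ℤ) ∧ 0 < A 1 0 := by
  refine ⟨fun h => ⟨h.a11, h.eqn, h.pos⟩, fun ⟨h1, h2, h3⟩ => ⟨by rw [h1]; ring, ?_, h3⟩⟩
  rw [Matrix.det_fin_two, h1]
  linarith

/-! ### conjugation -/

/-- conjugation by `SL₂(ℤ)` -/
def cj (γ : SL(2, ℤ)) (A : Matrix (Fin 2) (Fin 2) ℤ) : Matrix (Fin 2) (Fin 2) ℤ :=
  (γ : Matrix (Fin 2) (Fin 2) ℤ) * A * ((γ⁻¹ : SL(2, ℤ)) : Matrix (Fin 2) (Fin 2) ℤ)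

theorem coe_mul_inv' (γ : SL(2, ℤ)) : (γ : Matrix (Fin 2) (Fin 2) ℤ) *
    ((γ⁻¹ : SL(2, ℤ)) : Matrix (Fin 2) (Fin 2) ℤ) = 1 := by
  rw [← Matrix.SpecialLinearGroup.coe_mul, mul_inv_cancel, Matrix.SpecialLinearGroup.coe_one]

theorem coe_inv_mul' (γ : SL(2, ℤ)) : ((γ⁻¹ : SL(2, ℤ)) : Matrix (Fin 2) (Fin 2) ℤ) *
    (γ : Matrix (Fin 2) (Fin 2) ℤ) = 1 := by
  rw [← Matrix.SpecialLinearGroup.coe_mul, inv_mul_cancel, Matrix.SpecialLinearGroup.coe_one]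

theorem mul_eq_cj_mul (γ : SL(2, ℤ)) (A : Matrix (Fin 2) (Fin 2) ℤ) :
    (γ : Matrix (Fin 2) (Fin 2) ℤ) * A = cj γ A * γ := by
  rw [cj, mul_assoc _ _ (γ : Matrix (Fin 2) (Fin 2) ℤ), coe_inv_mul', mul_one]

theorem eq_cj {γ : SL(2, ℤ)} {A B : Matrix (Fin 2) (Fin 2) ℤ}
    (h : (γ : Matrix (Fin 2) (Fin 2) ℤ) * A = B * γ) : B = cj γ A := by
  rw [cj, h, mul_assoc, coe_mul_inv', mul_one]

theorem cj_mul (γ γ' : SL(2, ℤ)) (A : Matrix (Fin 2) (Fin 2) ℤ) :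
    cj (γ * γ') A = cj γ (cj γ' A) := by
  symm
  apply eq_cj
  rw [Matrix.SpecialLinearGroup.coe_mul, mul_assoc, mul_eq_cj_mul γ' A, ← mul_assoc,
    mul_eq_cj_mul γ, mul_assoc]

section Entries

variable (γ : SL(2, ℤ)) {A : Matrix (Fin 2) (Fin 2) ℤ} (hA : A 1 1 = -A 0 0)

theorem det_eq' : γ 0 0 * γ 1 1 - γ 0 1 * γ 1 0 = 1 := by
  have := γ.det_coe
  rwa [Matrix.det_fin_two] at this

include hA

theorem cj_00 : cj γ A 0 0 = A 0 0 * (γ 0 0 * γ 1 1 + γ 0 1 * γ 1 0) + γ 0 1 * A 1 0 * γ 1 1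
    - γ 0 0 * A 0 1 * γ 1 0 := by
  simp only [cj, Matrix.SpecialLinearGroup.SL2_inv_expl, Matrix.mul_apply, Fin.sum_univ_two, hA]
  simp
  ring

theorem cj_10 : cj γ A 1 0 = 2 * A 0 0 * γ 1 0 * γ 1 1 + A 1 0 * γ 1 1 ^ 2
    - A 0 1 * γ 1 0 ^ 2 := by
  simp only [cj, Matrix.SpecialLinearGroup.SL2_inv_expl, Matrix.mul_apply, Fin.sum_univ_two, hA]
  simp
  ring

theorem cj_01 : cj γ A 0 1 = -(2 * A 0 0 * γ 0 0 * γ 0 1) - A 1 0 * γ 0 1 ^ 2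
    + A 0 1 * γ 0 0 ^ 2 := by
  simp only [cj, Matrix.SpecialLinearGroup.SL2_inv_expl, Matrix.mul_apply, Fin.sum_univ_two, hA]
  simp
  ring

theorem cj_11 : cj γ A 1 1 = - cj γ A 0 0 := by
  rw [cj_00 γ hA]
  simp only [cj, Matrix.SpecialLinearGroup.SL2_inv_expl, Matrix.mul_apply, Fin.sum_univ_two, hA]
  simp
  ring

end Entries

theorem Mx.cj {N : ℕ} (hN : 0 < N) {A : Matrix (Fin 2) (Fin 2) ℤ} (hA : Mx N A)
    (γ : SL(2, ℤ)) : Mx N (cj γ A) := by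
  refine mx_iff.2 ⟨cj_11 γ hA.a11, ?_, ?_⟩
  · have h1 : (ZCm.cj γ A).det = A.det := by
      rw [ZCm.cj, Matrix.det_mul, Matrix.det_mul, γ.det_coe, (γ⁻¹).det_coe]; ring
    rw [Matrix.det_fin_two, cj_11 γ hA.a11, hA.det] at h1
    linarith
  · rw [cj_10 γ hA.a11]
    have h1 := hA.eqn
    have h2 := hA.pos
    have h3 := det_eq' γ
    have hN' : (0 : ℤ) < N := by exact_mod_cast hN
    have h4 : A 1 0 * (2 * A 0 0 * γ 1 0 * γ 1 1 + A 1 0 * γ 1 1 ^ 2 - A 0 1 * γ 1 0 ^ 2) =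
        (A 1 0 * γ 1 1 + A 0 0 * γ 1 0) ^ 2 + N * γ 1 0 ^ 2 := by
      linear_combination -(γ 1 0) ^ 2 * h1
    have h5 : 0 < (A 1 0 * γ 1 1 + A 0 0 * γ 1 0) ^ 2 + N * γ 1 0 ^ 2 := by
      by_cases hp : γ 1 0 = 0
      · have hq : γ 1 1 ≠ 0 := by
          intro hq; rw [hp, hq] at h3; simp at h3
        rw [hp]
        have : A 1 0 * γ 1 1 ≠ 0 := mul_ne_zero h2.ne' hq
        have := sq_pos_of_ne_zero this
        simpa using this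
      · have := sq_pos_of_ne_zero hp
        nlinarith [sq_nonneg (A 1 0 * γ 1 1 + A 0 0 * γ 1 0)]
    rw [← h4] at h5
    exact (mul_pos_iff_of_pos_left h2).1 h5

/-! ### the ideal of a matrix -/

section IdealOf

variable {R : Type*} [CommRing R] [IsDedekindDomain R] [CharZero R] {N : ℕ} {lam : R}
  (hQ : IsQuad R N lam)

/-- the ideal `ℤ c + ℤ (√-N - a)` of a matrix `(a, b; c, -a)` -/
def J (A : Matrix (Fin 2) (Fin 2) ℤ) (hA : Mx N A) : Ideal R :=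
  idl hQ A (A 1 0 : R) (lam - A 0 0) (by ring) (by
    have h1 := hA.eqnR R
    have h2 : (A 1 1 : R) = -A 0 0 := by exact_mod_cast hA.a11
    rw [h2]
    linear_combination hQ.sq - h1)

theorem mem_J {A : Matrix (Fin 2) (Fin 2) ℤ} {hA : Mx N A} {x : R} :
    x ∈ J hQ A hA ↔ ∃ u v : ℤ, x = u * (A 1 0 : R) + v * (lam - A 0 0) := Iff.rfl

theorem J_ne_bot {A : Matrix (Fin 2) (Fin 2) ℤ} (hA : Mx N A) : J hQ A hA ≠ ⊥ := by
  intro h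
  have h1 : (A 1 0 : R) ∈ J hQ A hA := (mem_J hQ).2 ⟨1, 0, by simp⟩
  rw [h, Ideal.mem_bot] at h1
  exact hA.pos.ne' (by exact_mod_cast h1)

theorem absNorm_J [Module.Free ℤ R] [Module.Finite ℤ R] {A : Matrix (Fin 2) (Fin 2) ℤ}
    (hA : Mx N A) : Ideal.absNorm (J hQ A hA) = (A 1 0).natAbs := by
  have := hA.pos.ne'
  rw [J, absNorm_idl hQ (p₀ := A 1 0) (q₀ := 0) (p₁ := -A 0 0) (q₁ := 1) (by simp)
    (by push_cast; ring) (by simpa using this)]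
  simp

open Classical in
/-- the ideal class of a matrix -/
def cls (A : Matrix (Fin 2) (Fin 2) ℤ) : ClassGroup R :=
  if h : Mx N A then ClassGroup.mk0 ⟨J hQ A h, mem_nonZeroDivisors_of_ne_zero (J_ne_bot hQ h)⟩
  else 1

theorem cls_eq {A : Matrix (Fin 2) (Fin 2) ℤ} (h : Mx N A) :
    cls hQ A = ClassGroup.mk0 ⟨J hQ A h, mem_nonZeroDivisors_of_ne_zero (J_ne_bot hQ h)⟩ :=
  dif_pos h

theorem cls_eq_of_mul {A B : Matrix (Fin 2) (Fin 2) ℤ} (hA : Mx N A) (hB : Mx N B)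
    {γ : SL(2, ℤ)} (h : (γ : Matrix (Fin 2) (Fin 2) ℤ) * A = B * γ) :
    cls hQ A = cls hQ B := by
  rw [cls_eq hQ hA, cls_eq hQ hB, ClassGroup.mk0_eq_mk0_iff]
  have e00 := congrFun (congrFun h 0) 0
  have e01 := congrFun (congrFun h 0) 1
  have e10 := congrFun (congrFun h 1) 0
  have e11 := congrFun (congrFun h 1) 1
  simp only [Matrix.mul_apply, Fin.sum_univ_two] at e00 e01 e10 e11
  have E00 : (γ 0 0 * A 0 0 + γ 0 1 * A 1 0 : R) = B 0 0 * γ 0 0 + B 0 1 * γ 1 0 := by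
    exact_mod_cast e00
  have E01 : (γ 0 0 * A 0 1 + γ 0 1 * A 1 1 : R) = B 0 0 * γ 0 1 + B 0 1 * γ 1 1 := by
    exact_mod_cast e01
  have E10 : (γ 1 0 * A 0 0 + γ 1 1 * A 1 0 : R) = B 1 0 * γ 0 0 + B 1 1 * γ 1 0 := by
    exact_mod_cast e10
  have E11 : (γ 1 0 * A 0 1 + γ 1 1 * A 1 1 : R) = B 1 0 * γ 0 1 + B 1 1 * γ 1 1 := by
    exact_mod_cast e11
  have h1 := hB.eqnR R
  have h2 : (B 1 1 : R) = -B 0 0 := by exact_mod_cast hB.a11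
  have hdet : (γ 0 0 : R) * γ 1 1 - γ 0 1 * γ 1 0 = 1 := by exact_mod_cast det_eq' γ
  set s₀ : R := (B 1 0 : R) with hs₀
  set s₁ : R := lam - B 0 0 with hs₁
  have k₀ : lam * s₀ = B 0 0 * s₀ + B 1 0 * s₁ := by rw [hs₀, hs₁]; ring
  have k₁ : lam * s₁ = B 0 1 * s₀ + B 1 1 * s₁ := by
    rw [h2, hs₁, hs₀]; linear_combination hQ.sq - h1
  set t₀ : R := γ 0 0 * s₀ + γ 1 0 * s₁ with ht₀
  set t₁ : R := γ 0 1 * s₀ + γ 1 1 * s₁ with ht₁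
  have l₀ : lam * t₀ = A 0 0 * t₀ + A 1 0 * t₁ := by
    rw [ht₀, ht₁]
    linear_combination (γ 0 0 : R) * k₀ + (γ 1 0 : R) * k₁ - s₀ * E00 - s₁ * E10
  have l₁ : lam * t₁ = A 0 1 * t₀ + A 1 1 * t₁ := by
    rw [ht₀, ht₁]
    linear_combination (γ 0 1 : R) * k₀ + (γ 1 1 : R) * k₁ - s₀ * E01 - s₁ * E11
  have hBc : (B 1 0 : R) ≠ 0 := by exact_mod_cast hB.pos.ne'
  have hAc : (A 1 0 : R) ≠ 0 := by exact_mod_cast hA.pos.ne'
  have e1 : J hQ B hB = idl hQ A t₀ t₁ l₀ l₁ := by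
    ext x
    rw [mem_J, mem_idl]
    constructor
    · rintro ⟨u, v, rfl⟩
      refine ⟨γ 1 1 * u - γ 0 1 * v, -(γ 1 0) * u + γ 0 0 * v, ?_⟩
      push_cast
      rw [ht₀, ht₁]
      linear_combination -(u * s₀ + v * s₁) * hdet
    · rintro ⟨u, v, rfl⟩
      refine ⟨γ 0 0 * u + γ 0 1 * v, γ 1 0 * u + γ 1 1 * v, ?_⟩
      push_cast
      rw [ht₀, ht₁]
      ring
  have ht0 : t₀ ≠ 0 := by
    intro h0
    rw [h0] at l₀
    have : t₁ = 0 := by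
      have h3 : (A 1 0 : R) * t₁ = 0 := by linear_combination -l₀
      exact (mul_eq_zero.1 h3).resolve_left hAc
    have h4 : s₀ = 0 := by
      have : s₀ = γ 1 1 * t₀ - γ 1 0 * t₁ := by
        rw [ht₀, ht₁]; linear_combination -s₀ * hdet
      rw [this, h0, ‹t₁ = 0›]; ring
    exact hBc h4
  refine ⟨t₀, A 1 0, ht0, hAc, ?_⟩
  show Ideal.span {t₀} * J hQ A hA = Ideal.span {(A 1 0 : R)} * J hQ B hB
  rw [e1, J]
  exact span_mul_idl hQ (mem_nonZeroDivisors_of_ne_zero hAc)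

end IdealOf

end Fermat.Agent.ZCm
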