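import Fermat.Agent.ZCm.Cls
import Mathlib.Data.Int.NatPrime
import Mathlib.Algebra.Squarefree.Basic
import Mathlib.Data.Nat.Squarefree

/-!
# `Γ₀(N)`-conjugacy and neighbours
-/

set_option autoImplicit false
set_option linter.unusedSectionVars false

noncomputable section

open Module nonZeroDivisors MatrixGroups CongruenceSubgroup

namespace Fermat.Agent.ZCm

variable {N : ℕ}

theorem mem_G0 {γ : SL(2, ℤ)} : γ ∈ Gamma0 N ↔ (N : ℤ) ∣ γ 1 0 := by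
  rw [Gamma0_mem, ZMod.intCast_zmod_eq_zero_iff_dvd]

theorem gamma_mem (hN : 0 < N) {A B : Matrix (Fin 2) (Fin 2) ℤ} (hA : Fx N A) (hB : Fx N B)
    {γ : SL(2, ℤ)} (h : (γ : Matrix (Fin 2) (Fin 2) ℤ) * A = B * γ) : γ ∈ Gamma0 N := by
  have e00 := congrFun (congrFun h 0) 0
  simp only [Matrix.mul_apply, Fin.sum_univ_two] at e00
  obtain ⟨a, ha⟩ := hB.d0
  obtain ⟨c, hc⟩ := hB.d1
  have h1 := hB.mx.eqn
  have hN' : (N : ℤ) ≠ 0 := by exact_mod_cast hN.ne'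
  have h2 : B 0 1 * c = -(1 + N * a ^ 2) := by
    have : (N : ℤ) * (B 0 1 * c + (1 + N * a ^ 2)) = 0 := by
      rw [ha, hc] at h1; linear_combination h1
    have := (mul_eq_zero.1 this).resolve_left hN'
    linarith
  have h3 : IsCoprime (N : ℤ) (B 0 1) := ⟨-a ^ 2, -c, by linear_combination -h2⟩
  have h4 : (N : ℤ) ∣ B 0 1 * γ 1 0 := by
    have : B 0 1 * γ 1 0 = A 0 0 * γ 0 0 + A 1 0 * γ 0 1 - B 0 0 * γ 0 0 := by
      linear_combination -e00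
    rw [this]
    exact dvd_sub (dvd_add (dvd_mul_of_dvd_left hA.d0 _) (dvd_mul_of_dvd_left hA.d1 _))
      (dvd_mul_of_dvd_left hB.d0 _)
  exact mem_G0.2 (h3.dvd_of_dvd_mul_left h4)

theorem Fx.cj (hN : 0 < N) {A : Matrix (Fin 2) (Fin 2) ℤ} (hA : Fx N A) {γ : SL(2, ℤ)}
    (hγ : γ ∈ Gamma0 N) : Fx N (cj γ A) := by
  have h1 := hA.mx.cj hN γ
  rw [mem_G0] at hγ
  refine ⟨h1.tr, h1.det, ?_, ?_, h1.pos⟩
  · rw [cj_00 γ hA.mx.a11]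
    exact dvd_sub (dvd_add (dvd_mul_of_dvd_left hA.d0 _)
      (dvd_mul_of_dvd_left (dvd_mul_of_dvd_right hA.d1 _) _)) (dvd_mul_of_dvd_right hγ _)
  · rw [cj_10 γ hA.mx.a11]
    refine dvd_sub (dvd_add (dvd_mul_of_dvd_left (dvd_mul_of_dvd_right hγ _) _)
      (dvd_mul_of_dvd_left hA.d1 _)) (dvd_mul_of_dvd_right ?_ _)
    rw [pow_two]
    exact dvd_mul_of_dvd_right hγ _

theorem exists_fx (hN : 0 < N) (hsq : Squarefree N) {A : Matrix (Fin 2) (Fin 2) ℤ}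
    (hA : Mx N A) : ∃ γ : SL(2, ℤ), Fx N (cj γ A) := by
  set g : ℤ := (Int.gcd (A 1 0) N : ℤ) with hg
  have hgc : g ∣ A 1 0 := Int.gcd_dvd_left ..
  obtain ⟨n, hn⟩ : g ∣ (N : ℤ) := Int.gcd_dvd_right ..
  have hsqZ : Squarefree (N : ℤ) := Int.squarefree_natCast.2 hsq
  have heq := hA.eqn
  have hcop : IsCoprime (A 0 0 + A 0 1 * n) (A 1 0 - A 0 0 * n) := by
    rw [Int.isCoprime_iff_gcd_eq_one]
    by_contra hne
    obtain ⟨p, hp, hpd⟩ := Nat.exists_prime_and_dvd hne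
    have hpZ : Prime (p : ℤ) := Nat.prime_iff_prime_int.1 hp
    have hd0 : (p : ℤ) ∣ A 0 0 + A 0 1 * n :=
      dvd_trans (by exact_mod_cast hpd) (Int.gcd_dvd_left ..)
    have hd1 : (p : ℤ) ∣ A 1 0 - A 0 0 * n :=
      dvd_trans (by exact_mod_cast hpd) (Int.gcd_dvd_right ..)
    have hpN : (p : ℤ) ∣ N := by
      have : (N : ℤ) = -(A 0 0 * (A 0 0 + A 0 1 * n) + A 0 1 * (A 1 0 - A 0 0 * n)) := by
        linear_combination heq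
      rw [this, dvd_neg]
      exact dvd_add (dvd_mul_of_dvd_right hd0 _) (dvd_mul_of_dvd_right hd1 _)
    have hnot : ¬ ((p : ℤ) * p ∣ N) := fun h => hpZ.not_isUnit (hsqZ _ h)
    have key : (p : ℤ) ∣ g → (p : ℤ) ∣ n → False := fun h1 h2 =>
      hnot (by rw [hn]; exact mul_dvd_mul h1 h2)
    have case1 : (p : ℤ) ∣ g → False := by
      intro h1
      have h2 : (p : ℤ) ∣ A 1 0 := h1.trans hgc
      have h3 : (p : ℤ) ∣ A 0 0 := by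
        refine hpZ.dvd_of_dvd_pow (n := 2) ?_
        have : A 0 0 ^ 2 = -(N : ℤ) - A 0 1 * A 1 0 := by linear_combination heq
        rw [this]
        exact dvd_sub (dvd_neg.2 hpN) (dvd_mul_of_dvd_right h2 _)
      have h4 : (p : ℤ) ∣ A 0 1 * n := by
        have : A 0 1 * n = (A 0 0 + A 0 1 * n) - A 0 0 := by ring
        rw [this]; exact dvd_sub hd0 h3
      rcases hpZ.dvd_or_dvd h4 with h5 | h5
      · apply hnot
        have : (N : ℤ) = -(A 0 0 * A 0 0 + A 0 1 * A 1 0) := by linear_combination heq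
        rw [this, dvd_neg]
        exact dvd_add (mul_dvd_mul h3 h3) (mul_dvd_mul h5 h2)
      · exact key h1 h5
    rcases hpZ.dvd_or_dvd (hn ▸ hpN : (p : ℤ) ∣ g * n) with h1 | h1
    · exact case1 h1
    · have h2 : (p : ℤ) ∣ A 1 0 := by
        have : A 1 0 = (A 1 0 - A 0 0 * n) + A 0 0 * n := by ring
        rw [this]
        exact dvd_add hd1 (dvd_mul_of_dvd_right h1 _)
      exact case1 (Int.dvd_coe_gcd h2 hpN)
  obtain ⟨t, s, hts⟩ := hcop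
  let γ : SL(2, ℤ) := ⟨!![t, s; -(A 1 0 - A 0 0 * n), A 0 0 + A 0 1 * n], by
    rw [Matrix.det_fin_two_of]; linear_combination hts⟩
  have h1 := hA.cj hN γ
  have g10 : γ 1 0 = -(A 1 0 - A 0 0 * n) := rfl
  have g11 : γ 1 1 = A 0 0 + A 0 1 * n := rfl
  have hd1 : (N : ℤ) ∣ ZCm.cj γ A 1 0 := by
    rw [cj_10 γ hA.a11, g10, g11]
    refine ⟨A 1 0 - 2 * A 0 0 * n - A 0 1 * n ^ 2, ?_⟩
    linear_combination (-A 1 0 + 2 * A 0 0 * n + A 0 1 * n ^ 2) * heq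
  refine ⟨γ, h1.tr, h1.det, ?_, hd1, h1.pos⟩
  refine (hsqZ.dvd_pow_iff_dvd (n := 2) two_ne_zero).1 ?_
  have : ZCm.cj γ A 0 0 ^ 2 = -(N : ℤ) - ZCm.cj γ A 0 1 * ZCm.cj γ A 1 0 := by
    linear_combination h1.eqn
  rw [this]
  exact dvd_sub (dvd_neg.2 dvd_rfl) (dvd_mul_of_dvd_right hd1 _)

/-! ### eigenlines modulo `l` -/

section Nbr

variable {l : ℕ} {A : Matrix (Fin 2) (Fin 2) ℤ}

theorem cj_entries (hA : A 1 1 = -A 0 0) (ρ : SL(2, ℤ)) :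
    ρ 1 0 * A 0 0 + ρ 1 1 * A 1 0 = cj ρ A 1 0 * ρ 0 0 - cj ρ A 0 0 * ρ 1 0 ∧
    ρ 1 0 * A 0 1 - ρ 1 1 * A 0 0 = cj ρ A 1 0 * ρ 0 1 - cj ρ A 0 0 * ρ 1 1 := by
  have h := mul_eq_cj_mul ρ A
  have e10 := congrFun (congrFun h 1) 0
  have e11 := congrFun (congrFun h 1) 1
  simp only [Matrix.mul_apply, Fin.sum_univ_two, cj_11 ρ hA, hA] at e10 e11
  constructor
  · linear_combination e10
  · linear_combination e11

/-- uniqueness of the eigenline -/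
theorem dvd_of_eigen (hl : l.Prime) (hA : A 1 1 = -A 0 0) {ρ ρ' : SL(2, ℤ)} {r : ℤ}
    (h1 : (l : ℤ) ∣ cj ρ A 1 0) (h1' : (l : ℤ) ∣ cj ρ' A 1 0)
    (h2 : (l : ℤ) ∣ cj ρ A 0 0 - r) (h2' : (l : ℤ) ∣ cj ρ' A 0 0 - r)
    (hr : ¬ (l : ℤ) ∣ 2 * r) : (l : ℤ) ∣ (ρ * ρ'⁻¹ : SL(2, ℤ)) 1 0 := by
  have hlZ : Prime (l : ℤ) := Nat.prime_iff_prime_int.1 hl
  obtain ⟨e1, e2⟩ := cj_entries hA ρ
  obtain ⟨e1', e2'⟩ := cj_entries hA ρ'
  obtain ⟨u, hu⟩ := h1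
  obtain ⟨v, hv⟩ := h2
  obtain ⟨u', hu'⟩ := h1'
  obtain ⟨v', hv'⟩ := h2'
  have e3 : (ρ * ρ'⁻¹ : SL(2, ℤ)) 1 0 = ρ 1 0 * ρ' 1 1 - ρ 1 1 * ρ' 1 0 := by
    rw [Matrix.SpecialLinearGroup.coe_mul, Matrix.SpecialLinearGroup.SL2_inv_expl,
      Matrix.mul_apply, Fin.sum_univ_two]
    simp
    ring
  rw [e3]
  refine (hlZ.dvd_or_dvd (?_ : (l : ℤ) ∣ (2 * r) * _)).resolve_left hr
  have f1 : cj ρ A 0 0 = r + l * v := by linarith
  have f1' : cj ρ' A 0 0 = r + l * v' := by linarith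
  rw [hu, f1] at e1 e2
  rw [hu', f1'] at e1' e2'
  refine ⟨(u * ρ 0 0 - v * ρ 1 0) * ρ' 1 1 - (u' * ρ' 0 0 - v' * ρ' 1 0) * ρ 1 1
    - (u * ρ 0 1 - v * ρ 1 1) * ρ' 1 0 + (u' * ρ' 0 1 - v' * ρ' 1 1) * ρ 1 0, ?_⟩
  linear_combination ρ' 1 1 * e1 - ρ 1 1 * e1' - ρ' 1 0 * e2 + ρ 1 0 * e2'

/-- an eigenline gives a conjugate with lower left entry divisible by `l` -/
theorem cj_of_eigen (hA : A 1 1 = -A 0 0) {ρ : SL(2, ℤ)} {r : ℤ}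
    (h1 : (l : ℤ) ∣ (A 0 0 + r) * ρ 1 0 + A 1 0 * ρ 1 1)
    (h2 : (l : ℤ) ∣ A 0 1 * ρ 1 0 + (r - A 0 0) * ρ 1 1) :
    (l : ℤ) ∣ cj ρ A 1 0 ∧ (l : ℤ) ∣ cj ρ A 0 0 - r := by
  obtain ⟨u, hu⟩ := h1
  obtain ⟨v, hv⟩ := h2
  have hd := det_eq' ρ
  rw [cj_10 ρ hA, cj_00 ρ hA]
  constructor
  · refine ⟨u * ρ 1 1 - v * ρ 1 0, ?_⟩
    linear_combination ρ 1 1 * hu - ρ 1 0 * hv
  · refine ⟨u * ρ 0 1 - v * ρ 0 0, ?_⟩
    linear_combination ρ 0 1 * hu - ρ 0 0 * hv + r * hd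

theorem exists_eigen (hl : l.Prime) (hlN : ¬ l ∣ N) (hA : Mx N A) {r : ℤ}
    (hr : (l : ℤ) ∣ r ^ 2 + N) :
    ∃ ρ ∈ Gamma0 N, (l : ℤ) ∣ cj ρ A 1 0 ∧ (l : ℤ) ∣ cj ρ A 0 0 - r := by
  have hlZ : Prime (l : ℤ) := Nat.prime_iff_prime_int.1 hl
  have hlN' : ¬ (l : ℤ) ∣ N := by rwa [Int.natCast_dvd_natCast]
  have heq := hA.eqn
  have hinv : ∀ x : ℤ, ¬ (l : ℤ) ∣ x → ∃ y : ℤ, (l : ℤ) ∣ x * y - 1 := by
    intro x hx
    have : IsCoprime (l : ℤ) x := (Prime.coprime_iff_not_dvd hlZ).2 hx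
    obtain ⟨a, b, hab⟩ := this
    exact ⟨b, -a, by linear_combination hab⟩
  let P : ℤ → SL(2, ℤ) := fun k => ⟨!![1, k; (N : ℤ), N * k + 1], by
    rw [Matrix.det_fin_two_of]; ring⟩
  have P10 : ∀ k, P k 1 0 = N := fun k => rfl
  have P11 : ∀ k, P k 1 1 = N * k + 1 := fun k => rfl
  have Pm : ∀ k, P k ∈ Gamma0 N := fun k => mem_G0.2 (by rw [P10])
  obtain ⟨n', hn'⟩ := hinv _ hlN'
  have hprod : (l : ℤ) ∣ (r - A 0 0) * (r + A 0 0) - A 0 1 * A 1 0 := by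
    have : (r - A 0 0) * (r + A 0 0) - A 0 1 * A 1 0 = r ^ 2 + N := by linear_combination -heq
    rwa [this]
  by_cases hc : (l : ℤ) ∣ A 1 0
  · by_cases har : (l : ℤ) ∣ r - A 0 0
    · refine ⟨1, one_mem _, cj_of_eigen hA.a11 ?_ ?_⟩
      · simpa using hc
      · simpa using har
    · have har' : (l : ℤ) ∣ A 0 0 + r := by
        have : (l : ℤ) ∣ (r - A 0 0) * (A 0 0 + r) := by
          have e : (r - A 0 0) * (A 0 0 + r) =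
            ((r - A 0 0) * (r + A 0 0) - A 0 1 * A 1 0) + A 0 1 * A 1 0 := by ring
          rw [e]
          exact dvd_add hprod (dvd_mul_of_dvd_right hc _)
        exact (hlZ.dvd_or_dvd this).resolve_left har
      obtain ⟨d, hd⟩ := hinv _ har
      -- N k + 1 = - b N d
      refine ⟨P (n' * (-(A 0 1 * N * d) - 1)), Pm _, cj_of_eigen hA.a11 ?_ ?_⟩
      · exact dvd_add (dvd_mul_of_dvd_left har' _) (dvd_mul_of_dvd_left hc _)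
      · rw [P10, P11]
        obtain ⟨x, hx⟩ := hn'
        obtain ⟨y, hy⟩ := hd
        refine ⟨(r - A 0 0) * x * (-(A 0 1 * N * d) - 1) - A 0 1 * N * y, ?_⟩
        linear_combination (r - A 0 0) * (-(A 0 1 * N * d) - 1) * hx - A 0 1 * N * hy
  · obtain ⟨d, hd⟩ := hinv _ hc
    -- N k + 1 = -(a + r) N d
    refine ⟨P (n' * (-((A 0 0 + r) * N * d) - 1)), Pm _, cj_of_eigen hA.a11 ?_ ?_⟩
    · rw [P10, P11]
      obtain ⟨x, hx⟩ := hn'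
      obtain ⟨y, hy⟩ := hd
      refine ⟨A 1 0 * x * (-((A 0 0 + r) * N * d) - 1) - (A 0 0 + r) * N * y, ?_⟩
      linear_combination A 1 0 * (-((A 0 0 + r) * N * d) - 1) * hx - (A 0 0 + r) * N * hy
    · rw [P10, P11]
      obtain ⟨x, hx⟩ := hn'
      obtain ⟨y, hy⟩ := hd
      obtain ⟨z, hz⟩ := hprod
      refine ⟨(r - A 0 0) * x * (-((A 0 0 + r) * N * d) - 1) - N * d * z
        - A 0 1 * N * y, ?_⟩
      linear_combination (r - A 0 0) * (-((A 0 0 + r) * N * d) - 1) * hx - N * d * hz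
        - A 0 1 * N * hy

theorem cj_dvd_of_mem (hA : A 1 1 = -A 0 0) {ε : SL(2, ℤ)} (hε : (l : ℤ) ∣ ε 1 0) {r : ℤ}
    (h1 : (l : ℤ) ∣ A 1 0) (h2 : (l : ℤ) ∣ A 0 0 - r) :
    (l : ℤ) ∣ cj ε A 1 0 ∧ (l : ℤ) ∣ cj ε A 0 0 - r := by
  refine cj_of_eigen hA ?_ ?_
  · exact dvd_add (dvd_mul_of_dvd_right hε _) (dvd_mul_of_dvd_left h1 _)
  · refine dvd_add (dvd_mul_of_dvd_right hε _) (dvd_mul_of_dvd_left ?_ _)
    rwa [← dvd_neg, neg_sub]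

end Nbr

end Fermat.Agent.ZCm
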