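import Mathlib.RingTheory.Ideal.Norm.AbsNorm
import Mathlib.RingTheory.ClassGroup.Basic
import Mathlib.LinearAlgebra.Matrix.Determinant.Basic

/-!
# Ideals of `ℤ[√-N]` and integral matrices with square `-N`
-/

set_option autoImplicit false
set_option linter.unusedSectionVars false

noncomputable section

open Module nonZeroDivisors

namespace Fermat.Agent.ZCm

/-! ### bases with two elements -/

section Basis2

variable {M : Type*} [AddCommGroup M] (m₀ m₁ : M)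
  (hspan : ∀ x : M, ∃ u v : ℤ, x = u • m₀ + v • m₁)
  (hind : ∀ u v : ℤ, u • m₀ + v • m₁ = 0 → u = 0 ∧ v = 0)

/-- a `ℤ`-basis with two elements -/
def basis2 : Basis (Fin 2) ℤ M :=
  Basis.mk (v := ![m₀, m₁]) (LinearIndependent.pair_iff.2 hind) (by
    intro x _
    obtain ⟨u, v, rfl⟩ := hspan x
    exact add_mem (Submodule.smul_mem _ _ (Submodule.subset_span ⟨0, rfl⟩))
      (Submodule.smul_mem _ _ (Submodule.subset_span ⟨1, rfl⟩)))

theorem basis2_zero : basis2 m₀ m₁ hspan hind 0 = m₀ := by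
  rw [basis2, Basis.mk_apply]; rfl

theorem basis2_one : basis2 m₀ m₁ hspan hind 1 = m₁ := by
  rw [basis2, Basis.mk_apply]; rfl

theorem basis2_repr (u v : ℤ) :
    (basis2 m₀ m₁ hspan hind).repr (u • m₀ + v • m₁) 0 = u ∧
      (basis2 m₀ m₁ hspan hind).repr (u • m₀ + v • m₁) 1 = v := by
  have h0 := (basis2 m₀ m₁ hspan hind).repr_self 0
  have h1 := (basis2 m₀ m₁ hspan hind).repr_self 1
  rw [basis2_zero] at h0
  rw [basis2_one] at h1
  rw [map_add, map_zsmul, map_zsmul, h0, h1]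
  constructor <;> simp

end Basis2

section Quad

variable {R : Type*} [CommRing R] [IsDomain R] [CharZero R] {N : ℕ} {lam : R}

omit [IsDomain R] in
theorem zero_of_add_mul (hN : 0 < N) (hsq : lam ^ 2 = -(N : R)) (u v : ℤ)
    (h : (u : R) + v * lam = 0) : u = 0 ∧ v = 0 := by
  have h1 : (u : R) = -(v * lam) := by linear_combination h
  have h2 : (u : R) ^ 2 + N * v ^ 2 = 0 := by
    rw [h1]; linear_combination (v : R) ^ 2 * hsq
  have h3 : u ^ 2 + N * v ^ 2 = 0 := by exact_mod_cast h2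
  have hN' : (0 : ℤ) < N := by exact_mod_cast hN
  have h4 : v ^ 2 = 0 := by nlinarith [sq_nonneg u, sq_nonneg v]
  have h5 : v = 0 := by simpa using h4
  subst h5
  refine ⟨?_, rfl⟩
  simpa using h3

/-- The data of a ring `ℤ[√-N]`. -/
structure IsQuad (R : Type*) [CommRing R] (N : ℕ) (lam : R) : Prop where
  pos : 0 < N
  sq : lam ^ 2 = -(N : R)
  gen : ∀ x : R, ∃ a b : ℤ, x = a + b * lam

variable (hQ : IsQuad R N lam)
include hQ

theorem IsQuad.ext {u v u' v' : ℤ} (h : (u : R) + v * lam = u' + v' * lam) :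
    u = u' ∧ v = v' := by
  have := zero_of_add_mul hQ.pos hQ.sq (u - u') (v - v') (by
    push_cast; linear_combination h)
  omega

/-- the basis `1, √-N` -/
def IsQuad.basis : Basis (Fin 2) ℤ R :=
  basis2 (1 : R) lam (fun x => by
    obtain ⟨a, b, h⟩ := hQ.gen x
    exact ⟨a, b, by rw [h]; simp⟩) (fun u v h => by
    refine zero_of_add_mul hQ.pos hQ.sq u v ?_
    simpa using h)

theorem IsQuad.basis_repr (u v : ℤ) : hQ.basis.repr ((u : R) + v * lam) 0 = u ∧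
    hQ.basis.repr ((u : R) + v * lam) 1 = v := by
  have : (u : R) + v * lam = u • (1 : R) + v • lam := by simp
  rw [this]
  exact basis2_repr _ _ _ _ u v

/-! ### ideals with two generators as abelian groups -/

/-- the ideal `ℤ s₀ + ℤ s₁`, when it is stable under `√-N` -/
def idl (A : Matrix (Fin 2) (Fin 2) ℤ) (s₀ s₁ : R)
    (h₀ : lam * s₀ = A 0 0 * s₀ + A 1 0 * s₁) (h₁ : lam * s₁ = A 0 1 * s₀ + A 1 1 * s₁) :
    Ideal R where
  carrier := {x | ∃ u v : ℤ, x = u * s₀ + v * s₁}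
  zero_mem' := ⟨0, 0, by simp⟩
  add_mem' := by
    rintro _ _ ⟨u, v, rfl⟩ ⟨u', v', rfl⟩
    exact ⟨u + u', v + v', by push_cast; ring⟩
  smul_mem' := by
    rintro c _ ⟨u, v, rfl⟩
    obtain ⟨a, b, rfl⟩ := hQ.gen c
    refine ⟨a * u + b * (A 0 0 * u + A 0 1 * v), a * v + b * (A 1 0 * u + A 1 1 * v), ?_⟩
    push_cast
    rw [smul_eq_mul]
    linear_combination (b : R) * u * h₀ + (b : R) * v * h₁

variable {A : Matrix (Fin 2) (Fin 2) ℤ} {s₀ s₁ : R}
    {h₀ : lam * s₀ = A 0 0 * s₀ + A 1 0 * s₁} {h₁ : lam * s₁ = A 0 1 * s₀ + A 1 1 * s₁}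

omit [IsDomain R] [CharZero R] in
theorem mem_idl {x : R} : x ∈ idl hQ A s₀ s₁ h₀ h₁ ↔ ∃ u v : ℤ, x = u * s₀ + v * s₁ := Iff.rfl

omit [IsDomain R] in
theorem absNorm_idl [IsDedekindDomain R] [Module.Free ℤ R] [Module.Finite ℤ R]
    {p₀ q₀ p₁ q₁ : ℤ} (e₀ : s₀ = p₀ + q₀ * lam) (e₁ : s₁ = p₁ + q₁ * lam)
    (hD : p₀ * q₁ - p₁ * q₀ ≠ 0) :
    Ideal.absNorm (idl hQ A s₀ s₁ h₀ h₁) = (p₀ * q₁ - p₁ * q₀).natAbs := by
  set I := idl hQ A s₀ s₁ h₀ h₁ with hI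
  have m₀ : s₀ ∈ I := ⟨1, 0, by simp⟩
  have m₁ : s₁ ∈ I := ⟨0, 1, by simp⟩
  let bI : Basis (Fin 2) ℤ I := basis2 (⟨s₀, m₀⟩ : I) ⟨s₁, m₁⟩ (by
    rintro ⟨x, u, v, rfl⟩
    exact ⟨u, v, Subtype.ext (by simp)⟩) (by
    intro u v h
    have h1 : (u : R) * s₀ + v * s₁ = 0 := by
      have := congrArg Subtype.val h
      simpa using this
    have h2 : ((u * p₀ + v * p₁ : ℤ) : R) + ((u * q₀ + v * q₁ : ℤ) : R) * lam = 0 := by
      rw [e₀, e₁] at h1
      push_cast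
      linear_combination h1
    obtain ⟨h3, h4⟩ := zero_of_add_mul hQ.pos hQ.sq _ _ h2
    constructor
    · have : u * (p₀ * q₁ - p₁ * q₀) = 0 := by linear_combination q₁ * h3 - p₁ * h4
      exact (mul_eq_zero.1 this).resolve_right hD
    · have : v * (p₀ * q₁ - p₁ * q₀) = 0 := by linear_combination p₀ * h4 - q₀ * h3
      exact (mul_eq_zero.1 this).resolve_right hD)
  rw [← Ideal.natAbs_det_basis_change hQ.basis I bI]
  congr 1
  have hb0 : ((↑) ∘ bI : Fin 2 → R) 0 = s₀ := congrArg Subtype.val (basis2_zero _ _ _ _)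
  have hb1 : ((↑) ∘ bI : Fin 2 → R) 1 = s₁ := congrArg Subtype.val (basis2_one _ _ _ _)
  rw [Basis.det_apply, Matrix.det_fin_two]
  simp only [Basis.toMatrix_apply, hb0, hb1]
  rw [e₀, e₁, (hQ.basis_repr p₀ q₀).1, (hQ.basis_repr p₀ q₀).2, (hQ.basis_repr p₁ q₁).1,
    (hQ.basis_repr p₁ q₁).2]

omit [IsDomain R] [CharZero R] in
theorem span_mul_idl (hc : (A 1 0 : R) ∈ nonZeroDivisors R) {t₀ t₁ : R}
    {k₀ : lam * t₀ = A 0 0 * t₀ + A 1 0 * t₁} {k₁ : lam * t₁ = A 0 1 * t₀ + A 1 1 * t₁} :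
    Ideal.span {t₀} * idl hQ A s₀ s₁ h₀ h₁ = Ideal.span {s₀} * idl hQ A t₀ t₁ k₀ k₁ := by
  have key : s₁ * t₀ = t₁ * s₀ := by
    have : (A 1 0 : R) * (s₁ * t₀ - t₁ * s₀) = 0 := by
      linear_combination s₀ * k₀ - t₀ * h₀
    have := (mem_nonZeroDivisors_iff.1 hc).1 _ this
    linear_combination this
  ext x
  rw [Ideal.mem_span_singleton_mul, Ideal.mem_span_singleton_mul]
  constructor
  · rintro ⟨_, ⟨u, v, rfl⟩, rfl⟩
    exact ⟨u * t₀ + v * t₁, ⟨u, v, rfl⟩, by linear_combination -(v : R) * key⟩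
  · rintro ⟨_, ⟨u, v, rfl⟩, rfl⟩
    exact ⟨u * s₀ + v * s₁, ⟨u, v, rfl⟩, by linear_combination (v : R) * key⟩

end Quad

end Fermat.Agent.ZCm
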